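import Mathlib

/-!
# Places of a number field above a prime number: definitions

`above F q` is the finite set of the places of `F` above `q`, `fdeg v` the residue degree,
`ram v` the ramification index, `fSum F q` the sum of the residue degrees.
-/

set_option autoImplicit false
set_option linter.unusedSectionVars false

open NumberField IsDedekindDomain Ideal

namespace Fermat.Agent.Classic.Disc

variable (F : Type*) [Field F] [NumberField F]

lemma finite_above {q : ℕ} (hq : q ≠ 0) :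
    {v : HeightOneSpectrum (𝓞 F) | (q : 𝓞 F) ∈ v.asIdeal}.Finite := by
  have h0 : Ideal.span {(q : 𝓞 F)} ≠ 0 := by
    rw [Ne, Ideal.zero_eq_bot, Ideal.span_singleton_eq_bot]
    exact_mod_cast hq
  refine (Ideal.finite_factors h0).subset fun v hv => ?_
  have hv' : (q : 𝓞 F) ∈ v.asIdeal := hv
  change v.asIdeal ∣ Ideal.span {(q : 𝓞 F)}
  rwa [Ideal.dvd_span_singleton]

open scoped Classical in
/-- the places of `F` above `q` -/
noncomputable def above (q : ℕ) : Finset (HeightOneSpectrum (𝓞 F)) :=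
  if h : {v : HeightOneSpectrum (𝓞 F) | (q : 𝓞 F) ∈ v.asIdeal}.Finite then h.toFinset else ∅

variable {F}

lemma mem_above {q : ℕ} (hq : q ≠ 0) {v : HeightOneSpectrum (𝓞 F)} :
    v ∈ above F q ↔ (q : 𝓞 F) ∈ v.asIdeal := by
  rw [above, dif_pos (finite_above F hq), Set.Finite.mem_toFinset]
  rfl

/-- the residue degree of a place over the rationals -/
noncomputable def fdeg (v : HeightOneSpectrum (𝓞 F)) : ℕ := v.asIdeal.inertiaDeg ℤ

/-- the ramification index of a place over the rationals -/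
noncomputable def ram (v : HeightOneSpectrum (𝓞 F)) : ℕ := v.asIdeal.ramificationIdx ℤ

variable (F) in
/-- the sum of the residue degrees of the places above `q` -/
noncomputable def fSum (q : ℕ) : ℕ := ∑ v ∈ above F q, fdeg v

variable {q : ℕ} {v : HeightOneSpectrum (𝓞 F)}

lemma span_isPrime (hq : q.Prime) : (span {(q : ℤ)}).IsPrime := by
  rw [span_singleton_prime (by exact_mod_cast hq.ne_zero)]
  exact Nat.prime_iff_prime_int.mp hq

lemma span_isMaximal (hq : q.Prime) : (span {(q : ℤ)}).IsMaximal :=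
  (span_isPrime hq).isMaximal (by simpa using hq.ne_zero)

lemma liesOver (hq : q.Prime) (h : (q : 𝓞 F) ∈ v.asIdeal) :
    v.asIdeal.LiesOver (span {(q : ℤ)}) := by
  constructor
  refine (span_isMaximal hq).eq_of_le ?_ ?_
  · exact (Ideal.comap_isPrime _ _).ne_top
  · rw [Ideal.span_singleton_le_iff_mem, Ideal.mem_comap]
    simpa using h

lemma absNorm_eq (hq : q.Prime) (h : (q : 𝓞 F) ∈ v.asIdeal) :
    absNorm v.asIdeal = q ^ fdeg v := by
  have := liesOver hq h
  have := span_isMaximal hq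
  have := v.isMaximal
  rw [absNorm_eq_pow_inertiaDeg' v.asIdeal hq, fdeg, inertiaDeg'_eq_inertiaDeg]

lemma fdeg_pos (v : HeightOneSpectrum (𝓞 F)) : 0 < fdeg v :=
  inertiaDeg_pos _ _

lemma ram_pos (v : HeightOneSpectrum (𝓞 F)) : 0 < ram v :=
  ramificationIdx_pos _ _

lemma map_span (q : ℕ) : (span {(q : ℤ)}).map (algebraMap ℤ (𝓞 F)) = span {(q : 𝓞 F)} := by
  rw [Ideal.map_span, Set.image_singleton]
  simp

lemma span_ne_bot (hq : q ≠ 0) : span {(q : 𝓞 F)} ≠ ⊥ := by
  rw [Ne, Ideal.span_singleton_eq_bot]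
  exact_mod_cast hq

/-- the ramification index is the multiplicity of the place in `q` -/
lemma ram_eq (hq : q.Prime) (h : (q : 𝓞 F) ∈ v.asIdeal) :
    ram v = multiplicity v.asIdeal (span {(q : 𝓞 F)}) := by
  have := liesOver hq h
  rw [ram, IsDedekindDomain.ramificationIdx_eq_multiplicity (span {(q : ℤ)}), map_span]
  rw [map_span]
  exact span_ne_bot hq.ne_zero

/-- `(q) = v ^ ram v * Q` with `Q` prime to `v` -/
lemma exists_cofactor (hq : q.Prime) (h : (q : 𝓞 F) ∈ v.asIdeal) :
    ∃ Q : Ideal (𝓞 F), v.asIdeal ^ ram v * Q = span {(q : 𝓞 F)} ∧ IsCoprime v.asIdeal Q := by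
  have hf : FiniteMultiplicity v.asIdeal (span {(q : 𝓞 F)}) :=
    FiniteMultiplicity.of_not_isUnit (by
      rw [Ideal.isUnit_iff]
      exact v.isPrime.ne_top) (span_ne_bot hq.ne_zero)
  obtain ⟨Q, hQ, hQ'⟩ := hf.exists_eq_pow_mul_and_not_dvd
  refine ⟨Q, by rw [ram_eq hq h, ← hQ], ?_⟩
  rw [Ideal.isCoprime_iff_sup_eq]
  by_contra hne
  obtain ⟨M, hM, hle⟩ := Ideal.exists_le_maximal _ hne
  have h1 : v.asIdeal = M := v.isMaximal.eq_of_le hM.ne_top (le_sup_left.trans hle)
  have h2 : Q ≤ v.asIdeal := h1 ▸ (le_sup_right.trans hle)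
  exact hQ' (Ideal.dvd_iff_le.mpr h2)

/-- the fundamental identity -/
lemma sum_ram_fdeg (hq : q.Prime) :
    ∑ v ∈ above F q, ram v * fdeg v = Module.finrank ℚ F := by
  have := span_isPrime hq
  have := span_isMaximal hq
  have hbot : span {(q : ℤ)} ≠ ⊥ := by simpa using hq.ne_zero
  have : Fintype ((span {(q : ℤ)}).primesOver (𝓞 F)) :=
    (IsDedekindDomain.primesOver_finite (span {(q : ℤ)}) (𝓞 F)).fintype
  rw [← RingOfIntegers.rank, ← Ideal.sum_ramification_inertia_eq_finrank (span {(q : ℤ)}) (𝓞 F)]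
  refine Finset.sum_bij' (fun v hv => ⟨v.asIdeal, v.isPrime, liesOver hq ((mem_above hq.ne_zero).mp hv)⟩)
    (fun P _ => ⟨P.1, P.2.1, fun h0 => ?_⟩) (fun _ _ => Finset.mem_univ _) (fun P _ => ?_)
    (fun _ _ => rfl) (fun _ _ => rfl) (fun _ _ => rfl)
  · have := P.2.2
    exact ne_bot_of_liesOver_of_ne_bot hbot P.1 h0
  · rw [mem_above hq.ne_zero]
    have := P.2.2
    change (q : 𝓞 F) ∈ P.1
    have h1 : (q : ℤ) ∈ P.1.under ℤ := by
      rw [← P.1.over_def (span {(q : ℤ)})]
      exact mem_span_singleton_self _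
    simpa [Ideal.mem_comap] using h1

end Fermat.Agent.Classic.Disc
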