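import Fermat.Agent.Minkowski.Trivial
import Fermat.Agent.Classic.Level.Disc.Defs

/-!
# Inertia and ramification indices of subfields of a Galois extension

Let `K ⊂ ℚ̄` be a finite Galois extension of `ℚ` and `q` a prime such that `σ ^ n` is trivial on
`K` for all elements `σ` of the inertia groups above `q`, where `q ∤ n`.  Then `q` does not divide
the ramification indices above `q` of the subfields of `K`.
-/

set_option autoImplicit false

namespace Fermat.Agent.Classic.Disc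

open scoped Pointwise NumberField
open Fermat.Agent.Frob Fermat.Agent.Minkowski

/-- The primes of a number field containing `q` lie over `(q)`. -/
theorem under_eq_span {K : Type*} [Field K] {q : ℕ} (hq : q.Prime) (P : Ideal (𝓞 K))
    [P.IsPrime] (hqP : (q : 𝓞 K) ∈ P) : P.under ℤ = Ideal.span {(q : ℤ)} := by
  have hmax : (Ideal.span {(q : ℤ)}).IsMaximal :=
    (Ideal.span_singleton_prime (by exact_mod_cast hq.ne_zero)).mpr
      (Nat.prime_iff_prime_int.mp hq) |>.isMaximal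
        (by simpa using hq.ne_zero)
  refine (hmax.eq_of_le (Ideal.IsPrime.ne_top inferInstance) ?_).symm
  rw [Ideal.span_singleton_le_iff_mem]
  change algebraMap ℤ (𝓞 K) (q : ℤ) ∈ P
  simpa using hqP

/-- In the Galois case: `q` does not divide the ramification indices above `q`. -/
theorem not_dvd_ramificationIdx_of_isGalois (K : IntermediateField ℚ (AlgebraicClosure ℚ))
    [FiniteDimensional ℚ K] [IsGalois ℚ K] {q n : ℕ} (hq : q.Prime) (hn : ¬ q ∣ n)
    (h : ∀ A : ValuationSubring (AlgebraicClosure ℚ), A.LiesOverPrime q →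
      ∀ σ ∈ A.inertiaSubgroupIn ℚ, ∀ x ∈ K, (σ ^ n) x = x)
    (Q : Ideal (𝓞 K)) [hQ : Q.IsPrime] (hqQ : (q : 𝓞 K) ∈ Q) :
    ¬ q ∣ Q.ramificationIdx ℤ := by
  have : NumberField K := ⟨⟩
  obtain ⟨A, hA⟩ := exists_liesOverPrime q hq
  let P : Ideal (𝓞 K) := (centre A).comap (incl K)
  have hP : P.IsPrime := Ideal.comap_isPrime _ _
  have hPq : (q : 𝓞 K) ∈ P := by
    change incl K (q : 𝓞 K) ∈ centre A
    rw [map_natCast]
    exact natCast_mem_centre hA
  have hPu := under_eq_span hq P hPq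
  have hQu := under_eq_span hq Q hqQ
  have hp'p : (Ideal.span {(q : ℤ)}).IsPrime := by rw [← hPu]; infer_instance
  have hlP : P.LiesOver (Ideal.span {(q : ℤ)}) := ⟨hPu.symm⟩
  have hlQ : Q.LiesOver (Ideal.span {(q : ℤ)}) := ⟨hQu.symm⟩
  have hp0 : Ideal.span {(q : ℤ)} ≠ ⊥ := by
    simpa using hq.ne_zero
  have hfin : Finite (ℤ ⧸ Ideal.span {(q : ℤ)}) := Ring.HasFiniteQuotients.finiteQuotient hp0
  have hp'm : (Ideal.span {(q : ℤ)}).IsMaximal := hp'p.isMaximal hp0
  have hfin2 : Finite (Ideal.span {(q : ℤ)}).ResidueField := inferInstance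
  have hcard := Ideal.card_inertia_eq_ramificationIdxIn (G := K ≃ₐ[ℚ] K) (Ideal.span {(q : ℤ)}) P
  rw [Ideal.ramificationIdxIn_eq_ramificationIdx (Ideal.span {(q : ℤ)}) Q (K ≃ₐ[ℚ] K)] at hcard
  rw [← hcard]
  intro hdvd
  have : Fact q.Prime := ⟨hq⟩
  obtain ⟨⟨τ, hτ⟩, hord⟩ := exists_prime_orderOf_dvd_card' q hdvd
  obtain ⟨σ, hσ, hσF⟩ := exists_lift_inertia K hq hA τ
    (fun x => ⟨τ • x - x, rfl, hτ x⟩)
  have h1 : (τ : K ≃ₐ[ℚ] K) ^ n = 1 := by
    have h2 : ∀ (k : ℕ) (x : K), (σ ^ k) (x : AlgebraicClosure ℚ) = ((τ ^ k) x : K) := by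
      intro k
      induction k with
      | zero => intro x; rfl
      | succ k ih =>
        intro x
        rw [pow_succ, pow_succ]
        change (σ ^ k) (σ (x : AlgebraicClosure ℚ)) = (((τ ^ k) (τ x) : K) : AlgebraicClosure ℚ)
        rw [hσF, ih]
    ext x
    rw [← h2 n x]
    exact h A hA σ hσ x x.2
  apply hn
  rw [← hord]
  exact orderOf_dvd_of_pow_eq_one (Subtype.ext h1)

/-- **Tameness of the number fields which embed into `K`.** -/
theorem not_dvd_ramificationIdx {K : IntermediateField ℚ (AlgebraicClosure ℚ)}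
    [FiniteDimensional ℚ K] [Normal ℚ K] {q : ℕ} (hq : q.Prime) (n : ℕ)
    (hn : ∀ A : ValuationSubring (AlgebraicClosure ℚ), A.LiesOverPrime q →
      ∀ σ ∈ A.inertiaSubgroupIn ℚ, ∀ x ∈ K, (σ ^ n) x = x) (hqn : ¬ q ∣ n)
    {F : Type*} [Field F] [NumberField F] (i : F →+* AlgebraicClosure ℚ) (hi : ∀ x, i x ∈ K)
    (P : Ideal (𝓞 F)) [hP : P.IsPrime] (hqP : (q : 𝓞 F) ∈ P) :
    ¬ q ∣ P.ramificationIdx ℤ := by
  have hgal : IsGalois ℚ K := ⟨⟩
  have hNK : NumberField K := ⟨⟩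
  let algFK : Algebra F K := (i.codRestrict K hi).toAlgebra
  have hst : IsScalarTower ℚ F K := IsScalarTower.of_algebraMap_eq' (Subsingleton.elim _ _)
  obtain ⟨⟨Q, hQp, hQl⟩⟩ := Ideal.nonempty_primesOver (S := 𝓞 K) P
  have hqQ : (q : 𝓞 K) ∈ Q := by
    have h1 : algebraMap (𝓞 F) (𝓞 K) (q : 𝓞 F) ∈ Q := by
      have h2 : (q : 𝓞 F) ∈ Q.under (𝓞 F) := by
        rw [← hQl.over]
        exact hqP
      exact h2
    simpa using h1
  have h3 := not_dvd_ramificationIdx_of_isGalois K hq hqn hn Q hqQ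
  intro h4
  exact h3 (h4.trans (Ideal.ramificationIdx_below_dvd P Q))

/-- The same with an open normal subgroup of the absolute Galois group instead of `K`. -/
theorem not_dvd_ramificationIdx_of_normal {q n : ℕ} (hq : q.Prime) (hqn : ¬ q ∣ n)
    (N : Subgroup GQ) [N.Normal] (hN : IsOpen (N : Set GQ))
    (h : ∀ A : ValuationSubring (AlgebraicClosure ℚ), A.LiesOverPrime q →
      ∀ σ ∈ A.inertiaSubgroupIn ℚ, σ ^ n ∈ N)
    {F : Type*} [Field F] [NumberField F] (i : F →+* AlgebraicClosure ℚ)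
    (hi : ∀ σ ∈ N, ∀ x : F, σ (i x) = i x)
    (P : Ideal (𝓞 F)) [hP : P.IsPrime] (hqP : (q : 𝓞 F) ∈ P) :
    ¬ q ∣ P.ramificationIdx ℤ := by
  have hHc : IsClosed (N : Set GQ) := N.isClosed_of_isOpen hN
  let K : IntermediateField ℚ (AlgebraicClosure ℚ) := IntermediateField.fixedField N
  have hfix : K.fixingSubgroup = N := InfiniteGalois.fixingSubgroup_fixedField ⟨N, hHc⟩
  have hfd : FiniteDimensional ℚ K := by
    rw [← InfiniteGalois.isOpen_iff_finite]
    rw [hfix]
    exact hN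
  have hgal : IsGalois ℚ K := by
    have h1 := (InfiniteGalois.normal_iff_isGalois K).mp (by rw [hfix]; infer_instance)
    convert h1
    exact Subsingleton.elim _ _
  have hiK : ∀ x, i x ∈ K := fun x =>
    (IntermediateField.mem_fixedField_iff _ _).mpr fun g hg => hi g hg x
  refine not_dvd_ramificationIdx (K := K) hq n (fun A hA σ hσ x hx => ?_) hqn i hiK P hqP
  exact (IntermediateField.mem_fixedField_iff _ _).mp hx _ (h A hA σ hσ)

/-- **Tameness of the number fields which embed into `K`**, with places. -/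
theorem not_dvd_ram {K : IntermediateField ℚ (AlgebraicClosure ℚ)}
    [FiniteDimensional ℚ K] [Normal ℚ K] {q : ℕ} (hq : q.Prime) (n : ℕ)
    (hn : ∀ A : ValuationSubring (AlgebraicClosure ℚ), A.LiesOverPrime q →
      ∀ σ ∈ A.inertiaSubgroupIn ℚ, ∀ x ∈ K, (σ ^ n) x = x) (hqn : ¬ q ∣ n)
    {F : Type*} [Field F] [NumberField F] (i : F →+* AlgebraicClosure ℚ) (hi : ∀ x, i x ∈ K) :
    ∀ v ∈ above F q, ¬ q ∣ ram v := by
  intro v hv
  have := v.isPrime
  exact not_dvd_ramificationIdx hq n hn hqn i hi v.asIdeal ((mem_above hq.ne_zero).mp hv)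

/-- The same with an open normal subgroup of the absolute Galois group. -/
theorem not_dvd_ram_of_normal {q n : ℕ} (hq : q.Prime) (hqn : ¬ q ∣ n)
    (N : Subgroup GQ) [N.Normal] (hN : IsOpen (N : Set GQ))
    (h : ∀ A : ValuationSubring (AlgebraicClosure ℚ), A.LiesOverPrime q →
      ∀ σ ∈ A.inertiaSubgroupIn ℚ, σ ^ n ∈ N)
    {F : Type*} [Field F] [NumberField F] (i : F →+* AlgebraicClosure ℚ)
    (hi : ∀ σ ∈ N, ∀ x : F, σ (i x) = i x) :
    ∀ v ∈ above F q, ¬ q ∣ ram v := by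
  intro v hv
  have := v.isPrime
  exact not_dvd_ramificationIdx_of_normal hq hqn N hN h i hi v.asIdeal
    ((mem_above hq.ne_zero).mp hv)

/-- The same with a homomorphism to a discrete group with open kernel. -/
theorem not_dvd_ram_of_hom {G : Type*} [Group G] (ρ : GQ →* G) (hker : IsOpen (ρ.ker : Set GQ))
    {q n : ℕ} (hq : q.Prime) (hqn : ¬ q ∣ n)
    (h : ∀ A : ValuationSubring (AlgebraicClosure ℚ), A.LiesOverPrime q →
      ∀ σ ∈ A.inertiaSubgroupIn ℚ, ρ σ ^ n = 1)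
    {F : Type*} [Field F] [NumberField F] (i : F →+* AlgebraicClosure ℚ)
    (hi : ∀ σ : GQ, ρ σ = 1 → ∀ x : F, σ (i x) = i x) :
    ∀ v ∈ above F q, ¬ q ∣ ram v :=
  not_dvd_ram_of_normal hq hqn ρ.ker hker
    (fun A hA σ hσ => by rw [MonoidHom.mem_ker, map_pow]; exact h A hA σ hσ) i
    (fun σ hσ => hi σ hσ)

end Fermat.Agent.Classic.Disc
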