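import Mathlib

/-!
# The different at a tamely ramified prime

If `p B = P ^ e Q`, `P`, `Q` coprime and `e` is prime to the characteristic of `A / p`, then
`P ^ e` does not divide the different of `B / A`.
-/

set_option autoImplicit false

namespace Fermat.Agent.Classic.Disc

open Module NumberField

/-- A finite local algebra `R'` over a finite field `k` with residue field `l` and `#R' = #l ^ e`,
`e ≠ 0` in `k`: the trace does not vanish. -/
theorem exists_trace_ne_zero {k l R' : Type*} [Field k] [Finite k] [Field l] [CommRing R']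
    [Algebra k l] [Algebra k R'] [Finite R'] (π : R' →ₐ[k] l) (hπ : Function.Surjective π) {e : ℕ}
    (hnil : ∀ x, π x = 0 → x ^ e = 0) (he : Nat.card R' = Nat.card l ^ e) (hek : (e : k) ≠ 0) :
    ∃ x, Algebra.trace k R' x ≠ 0 := by
  classical
  have hR' : Nontrivial R' := π.toRingHom.domain_nontrivial
  have hl : Finite l := Finite.of_surjective _ hπ
  cases nonempty_fintype k
  cases nonempty_fintype l
  obtain ⟨p, hp⟩ := CharP.exists k
  have : Fact p.Prime := ⟨CharP.char_is_prime k p⟩
  have : CharP l p := charP_of_injective_algebraMap (algebraMap k l).injective p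
  have : CharP R' p := charP_of_injective_algebraMap (algebraMap k R').injective p
  obtain ⟨n, hn, hcard⟩ := FiniteField.card l p
  -- a power of Frobenius which is the identity on `l` and kills the nilpotent elements
  set m : ℕ := n * e with hm
  have hpl : ∀ y : l, y ^ p ^ m = y := by
    intro y
    rw [hm, pow_mul, ← hcard]
    exact FiniteField.pow_card_pow e y
  have hem : e ≤ p ^ m := by
    have h1 : e ≤ n * e := Nat.le_mul_of_pos_left e n.pos
    exact h1.trans (Nat.lt_pow_self (Fact.out : p.Prime).one_lt).le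
  have hker : ∀ x, π x = 0 → iterateFrobenius R' p m x = 0 := by
    intro x hx
    rw [iterateFrobenius_def]
    exact pow_eq_zero_of_le hem (hnil x hx)
  -- the section
  let g : R' →+* R' := iterateFrobenius R' p m
  have hle : RingHom.ker (π : R' →+* l) ≤ RingHom.ker g := fun x hx => hker x hx
  let τ : l →+* R' := RingHom.liftOfSurjective (π : R' →+* l) hπ ⟨g, hle⟩
  have hτ : ∀ x, τ (π x) = x ^ p ^ m := by
    intro x
    have := RingHom.liftOfRightInverse_comp_apply (π : R' →+* l) _
      (Function.rightInverse_surjInv hπ) ⟨g, hle⟩ x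
    rw [← iterateFrobenius_def]
    exact this
  have hτk : ∀ a : k, τ (algebraMap k l a) = algebraMap k R' a := by
    intro a
    rw [← AlgHom.commutes π a, hτ, ← map_pow]
    congr 1
    apply (algebraMap k l).injective
    rw [map_pow, hpl]
  let : Algebra l R' := τ.toAlgebra
  have : IsScalarTower k l R' := IsScalarTower.of_algebraMap_eq fun a => (hτk a).symm
  have : Module.Finite k R' := Module.Finite.of_finite
  have : Module.Finite l R' := Module.Finite.of_finite
  have : Module.Finite k l := Module.Finite.of_finite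
  have hfin : finrank l R' = e := by
    have h1 := Module.natCard_eq_pow_finrank (K := l) (V := R')
    rw [he] at h1
    exact (Nat.pow_right_injective (Finite.one_lt_card (α := l)) h1).symm
  obtain ⟨y, hy⟩ : ∃ y, Algebra.trace k l y ≠ 0 := by
    simpa [LinearMap.ext_iff] using Algebra.trace_ne_zero k l
  refine ⟨algebraMap l R' y, ?_⟩
  rw [← Algebra.trace_trace (S := l), Algebra.trace_algebraMap, hfin, map_nsmul, nsmul_eq_mul]
  exact mul_ne_zero hek hy

attribute [local instance] FractionRing.liftAlgebra FractionRing.isScalarTower_liftAlgebra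

/-- **(T1)** -/
theorem not_pow_dvd_differentIdeal {A B : Type*} [CommRing A] [CommRing B] [Algebra A B]
    [IsDedekindDomain A] [IsDedekindDomain B] [Module.IsTorsionFree A B]
    [Module.Finite A B] [Algebra.IsSeparable (FractionRing A) (FractionRing B)]
    {p : Ideal A} [p.IsMaximal] [Finite (A ⧸ p)] {P Q : Ideal B} [P.IsMaximal] (hP0 : P ≠ ⊥)
    {e : ℕ} (hPQ : IsCoprime (P ^ e) Q) (hP : P ^ e * Q = p.map (algebraMap A B))
    (he : (e : A ⧸ p) ≠ 0) : ¬ P ^ e ∣ differentIdeal A B := by
  classical
  have he0 : e ≠ 0 := by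
    rintro rfl
    simp at he
  have hle : p ≤ (P ^ e).comap (algebraMap A B) := by
    rw [← Ideal.map_le_iff_le_comap, ← hP]
    exact Ideal.mul_le_left
  have hle1 : p ≤ P.comap (algebraMap A B) :=
    fun a ha => Ideal.mem_comap.mpr (Ideal.pow_le_self he0 (Ideal.mem_comap.mp (hle ha)))
  let : Algebra (A ⧸ p) (B ⧸ P ^ e) := Ideal.Quotient.algebraQuotientOfLEComap hle
  let : Algebra (A ⧸ p) (B ⧸ P) := Ideal.Quotient.algebraQuotientOfLEComap hle1
  let : Algebra (A ⧸ p) (B ⧸ Q) := Ideal.Quotient.algebraQuotientOfLEComap (by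
      rw [← Ideal.map_le_iff_le_comap, ← hP]
      exact Ideal.mul_le_right)
  have : IsScalarTower A (A ⧸ p) (B ⧸ Q) := .of_algebraMap_eq' rfl
  have : Module.Finite (A ⧸ p) (B ⧸ Q) :=
    Module.Finite.of_restrictScalars_finite A (A ⧸ p) (B ⧸ Q)
  have : IsScalarTower A (A ⧸ p) (B ⧸ P ^ e) := .of_algebraMap_eq' rfl
  have : Module.Finite (A ⧸ p) (B ⧸ P ^ e) :=
    Module.Finite.of_restrictScalars_finite A (A ⧸ p) (B ⧸ P ^ e)
  have hfin : Finite (B ⧸ P ^ e) := Module.finite_of_finite (A ⧸ p)
  let : Field (A ⧸ p) := Ideal.Quotient.field p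
  let : Field (B ⧸ P) := Ideal.Quotient.field P
  let π : (B ⧸ P ^ e) →ₐ[A ⧸ p] (B ⧸ P) :=
    { Ideal.Quotient.factor (Ideal.pow_le_self he0) with
      commutes' := Quotient.ind fun _ ↦ rfl }
  have hπ : Function.Surjective π := Ideal.Quotient.factor_surjective (Ideal.pow_le_self he0)
  obtain ⟨x, hx⟩ := exists_trace_ne_zero (k := A ⧸ p) (l := B ⧸ P) (R' := B ⧸ P ^ e) π hπ (e := e)
    (by
      intro x
      obtain ⟨b, rfl⟩ := Ideal.Quotient.mk_surjective x
      intro hb
      have hb' : b ∈ P := Ideal.Quotient.eq_zero_iff_mem.mp hb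
      rw [← map_pow, Ideal.Quotient.eq_zero_iff_mem]
      exact Ideal.pow_mem_pow hb' e)
    (by
      have := cardQuot_pow_of_prime hP0 (P := P) (i := e)
      simpa only [Submodule.cardQuot_apply] using this)
    he
  let e' : (B ⧸ p.map (algebraMap A B)) ≃ₐ[A ⧸ p] ((B ⧸ P ^ e) × B ⧸ Q) :=
    { __ := (Ideal.quotEquivOfEq hP.symm).trans (Ideal.quotientMulEquivQuotientProd (P ^ e) Q hPQ),
      commutes' := Quotient.ind fun _ ↦ rfl }
  obtain ⟨y, hy⟩ := Ideal.Quotient.mk_surjective (e'.symm (x, 0))
  refine not_dvd_differentIdeal_of_intTrace_not_mem A (P ^ e) Q hP y ?_ ?_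
  · have := congr((e' $hy).2)
    simp at this
    simpa [e', Ideal.Quotient.eq_zero_iff_mem] using this
  · rw [← Ideal.Quotient.eq_zero_iff_mem, ← Algebra.trace_quotient_eq_of_isDedekindDomain,
      hy, Algebra.trace_eq_of_algEquiv, Algebra.trace_prod_apply]
    simpa

end Fermat.Agent.Classic.Disc
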