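import Fermat.Agent.Classic.Level.Disc.Defs
import Fermat.Agent.Classic.Level.Disc.Local
import Mathlib.NumberTheory.NumberField.Discriminant.Different

/-!
# The tame discriminant formula

`v_q(d_F) + ∑_{v | q} f_v = [F : ℚ]` if no ramification index above `q` is divisible by `q`;
`≥` for every prime `q`.
-/

set_option autoImplicit false

open NumberField IsDedekindDomain Ideal

namespace Fermat.Agent.Classic.Disc

variable {F : Type*} [Field F] [NumberField F] {q : ℕ}

lemma prime_asIdeal_tame (v : HeightOneSpectrum (𝓞 F)) : Prime v.asIdeal := v.prime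

lemma finiteMultiplicity_asIdeal (v : HeightOneSpectrum (𝓞 F)) {I : Ideal (𝓞 F)} (hI : I ≠ ⊥) :
    FiniteMultiplicity v.asIdeal I :=
  FiniteMultiplicity.of_not_isUnit (prime_asIdeal_tame v).not_isUnit hI

/-- the order at `q` of the norm of an ideal -/
lemma padicValNat_absNorm_ideal (hq : q.Prime) (I : Ideal (𝓞 F)) (hI : I ≠ ⊥) :
    padicValNat q (absNorm I) = ∑ v ∈ above F q, fdeg v * multiplicity v.asIdeal I := by
  have : Fact q.Prime := ⟨hq⟩
  induction I using UniqueFactorizationMonoid.induction_on_prime with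
  | h₁ => exact absurd rfl hI
  | h₂ x hx =>
    rw [Ideal.isUnit_iff] at hx
    subst hx
    rw [absNorm_top, padicValNat_one_right]
    symm
    refine Finset.sum_eq_zero fun v _ => ?_
    rw [multiplicity_eq_zero.mpr, mul_zero]
    intro h
    have := Ideal.dvd_iff_le.mp h
    exact v.isPrime.ne_top (top_le_iff.mp this)
  | h₃ a p ha hp ih =>
    have ha' : a ≠ ⊥ := ha
    have hp0 : p ≠ ⊥ := hp.ne_zero
    rw [map_mul, padicValNat.mul (absNorm_eq_zero_iff.not.mpr hp0)
      (absNorm_eq_zero_iff.not.mpr ha'), ih ha']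
    have h1 : ∀ v : HeightOneSpectrum (𝓞 F), multiplicity v.asIdeal (p * a) =
        multiplicity v.asIdeal p + multiplicity v.asIdeal a := fun v =>
      multiplicity_mul (prime_asIdeal_tame v) (finiteMultiplicity_asIdeal v hI)
    simp_rw [h1, mul_add]
    rw [Finset.sum_add_distrib]
    congr 1
    let w : HeightOneSpectrum (𝓞 F) := ⟨p, Ideal.isPrime_of_prime hp, hp0⟩
    have h2 : ∀ v : HeightOneSpectrum (𝓞 F), v ≠ w → multiplicity v.asIdeal p = 0 := by
      intro v hv
      rw [multiplicity_eq_zero]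
      intro h
      exact hv (HeightOneSpectrum.ext
        (w.isMaximal.eq_of_le v.isPrime.ne_top (Ideal.dvd_iff_le.mp h)).symm)
    by_cases hw : (q : 𝓞 F) ∈ p
    · have hwm : w ∈ above F q := (mem_above hq.ne_zero).mpr hw
      rw [Finset.sum_eq_single_of_mem w hwm fun v _ hv => by rw [h2 v hv, mul_zero]]
      change padicValNat q (absNorm w.asIdeal) = fdeg w * multiplicity w.asIdeal w.asIdeal
      rw [absNorm_eq hq hw, padicValNat.prime_pow, multiplicity_self, mul_one]
    · rw [Finset.sum_eq_zero, padicValNat.eq_zero_of_not_dvd]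
      · intro hdvd
        apply hw
        obtain ⟨P, hP, h3, h4⟩ := Ideal.exists_isMaximal_dvd_of_dvd_absNorm
          (Nat.prime_iff_prime_int.mp hq) p (by exact_mod_cast hdvd)
        have h5 : p = P := w.isMaximal.eq_of_le hP.ne_top (Ideal.dvd_iff_le.mp h4)
        rw [h5]
        have h6 : (q : ℤ) ∈ P.under ℤ := by
          rw [h3]
          exact mem_span_singleton_self _
        simpa [Ideal.mem_comap] using h6
      · intro v hv
        rw [h2 v, mul_zero]
        rintro rfl
        exact hw ((mem_above hq.ne_zero).mp hv)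

lemma differentIdeal_ne_bot_tame : differentIdeal ℤ (𝓞 F) ≠ ⊥ := differentIdeal_ne_bot

lemma padicValNat_discr (hq : q.Prime) : padicValNat q (discr F).natAbs =
    ∑ v ∈ above F q, fdeg v * multiplicity v.asIdeal (differentIdeal ℤ (𝓞 F)) := by
  rw [← absNorm_differentIdeal F (𝓞 F), padicValNat_absNorm_ideal hq _ differentIdeal_ne_bot_tame]

/-- the exponent of the different is at least `e - 1` -/
lemma ram_sub_one_le (hq : q.Prime) {v : HeightOneSpectrum (𝓞 F)} (h : (q : 𝓞 F) ∈ v.asIdeal) :
    ram v - 1 ≤ multiplicity v.asIdeal (differentIdeal ℤ (𝓞 F)) := by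
  have := span_isMaximal hq
  obtain ⟨Q, hQ, -⟩ := exists_cofactor hq h
  refine (finiteMultiplicity_asIdeal v differentIdeal_ne_bot_tame).le_multiplicity_of_pow_dvd ?_
  refine pow_sub_one_dvd_differentIdeal ℤ (p := span {(q : ℤ)}) v.asIdeal (ram v)
    (by simpa using hq.ne_zero) ?_
  rw [map_span, ← hQ]
  exact dvd_mul_right _ _

/-- the exponent of the different is `e - 1` at a tame place -/
lemma multiplicity_different (hq : q.Prime) {v : HeightOneSpectrum (𝓞 F)}
    (h : (q : 𝓞 F) ∈ v.asIdeal) (ht : ¬ q ∣ ram v) :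
    multiplicity v.asIdeal (differentIdeal ℤ (𝓞 F)) + 1 = ram v := by
  have := span_isMaximal hq
  have := v.isMaximal
  have hr := ram_pos v
  have h1 := ram_sub_one_le hq h
  obtain ⟨Q, hQ, hco⟩ := exists_cofactor hq h
  have hfin : Finite (ℤ ⧸ span {(q : ℤ)}) := by
    have : NeZero q := ⟨hq.ne_zero⟩
    exact Finite.of_equiv (ZMod q) (Int.quotientSpanNatEquivZMod q).symm.toEquiv
  have h2 : ¬ v.asIdeal ^ ram v ∣ differentIdeal ℤ (𝓞 F) := by
    refine not_pow_dvd_differentIdeal (p := span {(q : ℤ)}) (Q := Q) v.ne_bot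
      hco.pow_left (by rw [map_span, hQ]) ?_
    intro h3
    apply ht
    have h4 : ((ram v : ℤ) : ℤ ⧸ span {(q : ℤ)}) = 0 := by exact_mod_cast h3
    have h5 : Ideal.Quotient.mk (span {(q : ℤ)}) (ram v : ℤ) = 0 := h4
    rw [Ideal.Quotient.eq_zero_iff_mem, mem_span_singleton] at h5
    exact_mod_cast h5
  rw [← (finiteMultiplicity_asIdeal v differentIdeal_ne_bot_tame).multiplicity_lt_iff_not_dvd] at h2
  omega

/-- **(T2)** -/
theorem tame (hq : q.Prime) (ht : ∀ v ∈ above F q, ¬ q ∣ ram v) :
    padicValNat q (discr F).natAbs + fSum F q = Module.finrank ℚ F := by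
  rw [← sum_ram_fdeg (F := F) hq, padicValNat_discr hq, fSum, ← Finset.sum_add_distrib]
  refine Finset.sum_congr rfl fun v hv => ?_
  rw [← multiplicity_different hq ((mem_above hq.ne_zero).mp hv) (ht v hv)]
  ring

/-- `≥` holds for every prime. -/
theorem le_wild (hq : q.Prime) :
    Module.finrank ℚ F ≤ padicValNat q (discr F).natAbs + fSum F q := by
  rw [← sum_ram_fdeg (F := F) hq, padicValNat_discr hq, fSum, ← Finset.sum_add_distrib]
  refine Finset.sum_le_sum fun v hv => ?_
  have h1 := ram_sub_one_le hq ((mem_above hq.ne_zero).mp hv)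
  have h2 : ram v ≤ multiplicity v.asIdeal (differentIdeal ℤ (𝓞 F)) + 1 := by omega
  calc ram v * fdeg v ≤ (multiplicity v.asIdeal (differentIdeal ℤ (𝓞 F)) + 1) * fdeg v :=
        Nat.mul_le_mul_right _ h2
    _ = _ := by ring

end Fermat.Agent.Classic.Disc
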