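import Fermat.Agent.Classic.Level.Disc.Norm
import Fermat.Agent.Classic.Level.Disc.Tame
import Fermat.Agent.Classic.Level.Disc.Inertia
import Fermat.Agent.Classic.Level.FixField

/-!
# Discriminants and residue degrees of the fixed fields

`ρ : Gal(ℚ̄/ℚ) → G` continuous and surjective, `G` finite, `q` a prime such that `ρ(σ) ^ n = 1` on
the inertia groups above `q`, `q ∤ n`. For the fixed field `F` of `ρ⁻¹(H)`:
`v_q(discr F) + ∑_{v ∣ q} f_v = [G : H]`.
-/

set_option autoImplicit false
set_option linter.unusedSectionVars false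

namespace Fermat.Agent.Classic.Disc

open NumberField IsDedekindDomain Ideal
open Fermat.Agent.Frob Fermat.Agent.Classic.Level

/-! ### Tame primes, with the product of the norms of the bad places -/

section Norm

variable {F : Type*} [Field F] [NumberField F]

theorem padicValNat_prod_above {q N : ℕ} (hq : q.Prime) (hN : N ≠ 0) (hqN : q ∣ N) :
    padicValNat q (∏ v ∈ above F N, absNorm v.asIdeal) = fSum F q :=
  padicValNat_prod_absNorm hq hqN fun _ => mem_above hN

/-- **The exponent of `q` in the discriminant times the norms of the bad places.** -/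
theorem disc_add_norm {q N : ℕ} (hq : q.Prime) (hN : N ≠ 0) (hqN : q ∣ N)
    (ht : ∀ v ∈ above F q, ¬ q ∣ ram v) :
    padicValNat q (discr F).natAbs + padicValNat q (∏ v ∈ above F N, absNorm v.asIdeal) =
      Module.finrank ℚ F := by
  rw [padicValNat_prod_above hq hN hqN, tame hq ht]

theorem prod_absNorm_ne_zero (s : Finset (HeightOneSpectrum (𝓞 F))) :
    ∏ v ∈ s, absNorm v.asIdeal ≠ 0 :=
  Finset.prod_ne_zero_iff.mpr fun v _ h => v.ne_bot (absNorm_eq_zero_iff.mp h)

theorem natAbs_discr_ne_zero (F : Type*) [Field F] [NumberField F] : (discr F).natAbs ≠ 0 :=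
  Int.natAbs_ne_zero.mpr (discr_ne_zero F)

end Norm

/-! ### The fixed fields -/

section Fix

variable {G : Type*} [Group G] [TopologicalSpace G] [DiscreteTopology G] {ρ : GQ →* G}
  {H : Subgroup G}

theorem isOpen_ker (hρ : Continuous ρ) : IsOpen (ρ.ker : Set GQ) := by
  have : (ρ.ker : Set GQ) = ρ ⁻¹' {1} := by
    ext g
    simp [MonoidHom.mem_ker]
  rw [this]
  exact (isOpen_discrete _).preimage hρ

/-- `ρ` is tame at `q`: the inertia groups above `q` act through a group of exponent prime
to `q`. -/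
def TameAt (ρ : GQ →* G) (q : ℕ) : Prop :=
  ∃ n : ℕ, ¬ q ∣ n ∧ ∀ A : ValuationSubring (AlgebraicClosure ℚ), A.LiesOverPrime q →
    ∀ σ ∈ A.inertiaSubgroupIn ℚ, ρ σ ^ n = 1

/-- the fixed fields are tame at `q` -/
theorem TameAt.not_dvd_ram (hρ : Continuous ρ) (T : FixField ρ H) {q : ℕ} (hq : q.Prime)
    (ht : TameAt ρ q) {v : HeightOneSpectrum (𝓞 T.F)} (hv : v ∈ above T.F q) : ¬ q ∣ ram v := by
  obtain ⟨n, hqn, hn⟩ := ht
  have := v.isPrime
  refine not_dvd_ramificationIdx_of_normal hq hqn ρ.ker (isOpen_ker hρ)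
    (fun A hA σ hσ => ?_) T.i (fun σ hσ x => ?_) v.asIdeal ((mem_above hq.ne_zero).mp hv)
  · rw [MonoidHom.mem_ker, map_pow]
    exact hn A hA σ hσ
  · rw [MonoidHom.mem_ker] at hσ
    exact (T.fix σ).mpr (by rw [hσ]; exact one_mem H) x

/-- **The discriminant of the fixed field at a tame prime.** -/
theorem TameAt.disc_add_fSum (hρ : Continuous ρ) (hs : Function.Surjective ρ)
    (T : FixField ρ H) {q : ℕ} (hq : q.Prime) (ht : TameAt ρ q) :
    padicValNat q (discr T.F).natAbs + fSum T.F q = H.index := by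
  rw [tame hq fun v hv => ht.not_dvd_ram hρ T hq hv, T.finrank hs]

/-- **The same with the product of the norms of the bad places.** -/
theorem TameAt.disc_add_norm (hρ : Continuous ρ) (hs : Function.Surjective ρ)
    (T : FixField ρ H) {q N : ℕ} (hq : q.Prime) (ht : TameAt ρ q) (hN : N ≠ 0) (hqN : q ∣ N) :
    padicValNat q (discr T.F).natAbs +
      padicValNat q (∏ v ∈ above T.F N, absNorm v.asIdeal) = H.index := by
  rw [padicValNat_prod_above hq hN hqN, ht.disc_add_fSum hρ hs T hq]

end Fix

/-! ### Four fixed fields -/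

section Four

variable {G : Type*} [Group G] [TopologicalSpace G] [DiscreteTopology G] {ρ : GQ →* G}
  {A B C D : Subgroup G}

theorem padicValNat_mul_sq {q a b : ℕ} (hq : q.Prime) (ha : a ≠ 0) (hb : b ≠ 0) :
    padicValNat q (a * b ^ 2) = padicValNat q a + 2 * padicValNat q b := by
  have : Fact q.Prime := ⟨hq⟩
  rw [padicValNat.mul ha (pow_ne_zero 2 hb), padicValNat.pow]

/-- **The conductor exponent**: for the permutation character `A + 2 D - B - 2 C`. -/
theorem TameAt.four (hρ : Continuous ρ) (hs : Function.Surjective ρ)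
    (TA : FixField ρ A) (TB : FixField ρ B) (TC : FixField ρ C) (TD : FixField ρ D)
    {q : ℕ} (hq : q.Prime) (ht : TameAt ρ q) {k : ℕ}
    (hk : A.index + 2 * D.index = k + (B.index + 2 * C.index)) :
    padicValNat q ((discr TA.F).natAbs * (discr TD.F).natAbs ^ 2) +
      (fSum TA.F q + 2 * fSum TD.F q) =
    k + (padicValNat q ((discr TB.F).natAbs * (discr TC.F).natAbs ^ 2) +
      (fSum TB.F q + 2 * fSum TC.F q)) := by
  have hA := ht.disc_add_fSum hρ hs TA hq
  have hB := ht.disc_add_fSum hρ hs TB hq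
  have hC := ht.disc_add_fSum hρ hs TC hq
  have hD := ht.disc_add_fSum hρ hs TD hq
  rw [padicValNat_mul_sq hq (natAbs_discr_ne_zero _) (natAbs_discr_ne_zero _),
    padicValNat_mul_sq hq (natAbs_discr_ne_zero _) (natAbs_discr_ne_zero _)]
  omega

/-- the product `D_A N_A (D_D N_D)²` of the discriminants and of the norms of the bad places -/
noncomputable def cond2 {E E' : Subgroup G} (T : FixField ρ E) (T' : FixField ρ E') (N : ℕ) : ℕ :=
  (discr T.F).natAbs * (∏ v ∈ above T.F N, absNorm v.asIdeal) *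
    ((discr T'.F).natAbs * ∏ v ∈ above T'.F N, absNorm v.asIdeal) ^ 2

theorem TameAt.padicValNat_cond2 {E E' : Subgroup G} (hρ : Continuous ρ)
    (hs : Function.Surjective ρ) (T : FixField ρ E) (T' : FixField ρ E') {q N : ℕ}
    (hq : q.Prime) (ht : TameAt ρ q) (hN : N ≠ 0) (hqN : q ∣ N) :
    padicValNat q (cond2 T T' N) = E.index + 2 * E'.index := by
  have : Fact q.Prime := ⟨hq⟩
  have h1 := ht.disc_add_norm hρ hs T hq hN hqN
  have h2 := ht.disc_add_norm hρ hs T' hq hN hqN
  have a1 := natAbs_discr_ne_zero T.F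
  have a2 := natAbs_discr_ne_zero T'.F
  have b1 := prod_absNorm_ne_zero (above T.F N)
  have b2 := prod_absNorm_ne_zero (above T'.F N)
  rw [cond2, padicValNat_mul_sq hq (mul_ne_zero a1 b1) (mul_ne_zero a2 b2),
    padicValNat.mul a1 b1, padicValNat.mul a2 b2]
  omega

end Four

end Fermat.Agent.Classic.Disc
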