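import Fermat.Agent.Classic.Level.Steps
import Fermat.Agent.Classic.Level.FixField
import Fermat.Agent.S33.InertiaMu
import Fermat.Agent.CFT.SKummer.Omega
import Fermat.Agent.Frob.Exists

/-!
# Tame inertia at `3`: the image is `{1, c}`

`DetAt ρ q` (of `Steps.lean`) : at every place above `q`, the inertia elements of determinant one are in the kernel
of `ρ`. For `q = 3` (and `det ρ` the mod `3` cyclotomic character) the image of inertia is `{1, c}`
with `c` an involution of determinant `-1`.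
-/

set_option autoImplicit false

noncomputable section

namespace Fermat.Agent.Classic.Level

open WeierstrassCurve Matrix Fermat.Agent.LT.Tower

local notation "Γℚ" => (AlgebraicClosure ℚ ≃ₐ[ℚ] AlgebraicClosure ℚ)

/-- inertia elements of determinant one are in the kernel of `ρ`, at the place `A` -/
def DetAtP (ρ : Γℚ →* GL (Fin 2) (ZMod 3)) (A : ValuationSubring (AlgebraicClosure ℚ)) : Prop :=
  ∀ σ ∈ A.inertiaSubgroupIn ℚ, Matrix.GeneralLinearGroup.det (ρ σ) = 1 → ρ σ = 1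

variable {ρ : Γℚ →* GL (Fin 2) (ZMod 3)}

/-- from one place above `q` to all places above `q` -/
theorem DetAtP.detAt {q : ℕ} (hq : q.Prime) {A : ValuationSubring (AlgebraicClosure ℚ)}
    (hA : A.LiesOverPrime q) (h : DetAtP ρ A) : DetAt ρ q := by
  intro B hB σ hσ hd
  obtain ⟨g, rfl⟩ := Frob.exists_smul_eq hq hA hB
  have h1 := CFT.SKummer.conj_mem_inertia hσ
  have h2 : ρ (g⁻¹ * σ * g) = 1 := by
    refine h _ h1 ?_
    rw [map_mul, map_mul, map_mul, map_mul, hd, mul_one, map_inv, map_inv, inv_mul_cancel]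
  have h3 : ρ σ = ρ g * ρ (g⁻¹ * σ * g) * (ρ g)⁻¹ := by
    rw [map_mul, map_mul, map_inv]
    group
  rw [h3, h2, mul_one, mul_inv_cancel]

variable (hdet : ∀ σ : Γℚ, Matrix.GeneralLinearGroup.det (ρ σ) = modThreeCyclotomicChar σ)

lemma units_three (u : (ZMod 3)ˣ) : u = 1 ∨ u = -1 := by
  revert u
  decide

include hdet in
/-- there is an inertia element at `3` of determinant `-1` -/
theorem exists_inertia_det_neg {A : ValuationSubring (AlgebraicClosure ℚ)}
    (hA : A.LiesOverPrime 3) :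
    ∃ σ ∈ A.inertiaSubgroupIn ℚ, Matrix.GeneralLinearGroup.det (ρ σ) = -1 := by
  obtain ⟨ζ, hζ⟩ : ∃ ζ : AlgebraicClosure ℚ, IsPrimitiveRoot ζ 3 := by
    have : NeZero ((3 : ℕ) : AlgebraicClosure ℚ) := ⟨by norm_num⟩
    exact HasEnoughRootsOfUnity.exists_primitiveRoot (AlgebraicClosure ℚ) 3
  obtain ⟨σ, hσ, h1⟩ := S33aux.exists_inertia_inv Nat.prime_three hA hζ
  refine ⟨σ, hσ, (units_three _).resolve_left fun h => ?_⟩
  have h2 : σ ζ = ζ := (fix_omega_iff hdet hζ σ).mpr (congrArg Units.val h)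
  rw [h1] at h2
  have h3 : ζ ^ 2 = 1 := by
    rw [pow_two]
    nth_rewrite 1 [← h2]
    exact inv_mul_cancel₀ (hζ.ne_zero (by norm_num))
  have := hζ.dvd_of_pow_eq_one 2 h3
  omega

include hdet in
/-- **The image of inertia at `3`** is `{1, c}`, `c` an involution of determinant `-1`. -/
theorem DetAt.exists_involution (h : DetAt ρ 3) {A : ValuationSubring (AlgebraicClosure ℚ)}
    (hA : A.LiesOverPrime 3) :
    ∃ c : GL (Fin 2) (ZMod 3), c * c = 1 ∧
      (c : Matrix (Fin 2) (Fin 2) (ZMod 3)).det = -1 ∧ c ≠ 1 ∧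
      ∀ a, a ∈ (A.inertiaSubgroupIn ℚ).map ρ ↔ a = 1 ∨ a = c := by
  obtain ⟨σ₀, hσ₀, h0⟩ := exists_inertia_det_neg hdet hA
  have h2 : ρ σ₀ * ρ σ₀ = 1 := by
    rw [← map_mul]
    exact h A hA _ (mul_mem hσ₀ hσ₀) (by rw [map_mul, map_mul, h0]; decide)
  refine ⟨ρ σ₀, h2, congrArg Units.val h0, fun h3 => ?_, fun a => ⟨?_, ?_⟩⟩
  · rw [h3, map_one] at h0
    exact absurd h0 (by decide)
  · rintro ⟨σ, hσ, rfl⟩
    rcases units_three (Matrix.GeneralLinearGroup.det (ρ σ)) with h3 | h3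
    · exact Or.inl (h A hA σ hσ h3)
    · right
      have h4 : ρ (σ * σ₀) = 1 :=
        h A hA _ (mul_mem hσ hσ₀) (by rw [map_mul, map_mul, h3, h0]; decide)
      rw [map_mul] at h4
      exact mul_right_cancel (h4.trans h2.symm)
  · rintro (rfl | rfl)
    · exact one_mem _
    · exact ⟨σ₀, hσ₀, rfl⟩

include hdet in
/-- the exponent of inertia at `3` is two -/
theorem DetAt.sq (h : DetAt ρ 3) {A : ValuationSubring (AlgebraicClosure ℚ)}
    (hA : A.LiesOverPrime 3) {σ : Γℚ} (hσ : σ ∈ A.inertiaSubgroupIn ℚ) : ρ σ ^ 2 = 1 := by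
  obtain ⟨c, hc, -, -, hJ⟩ := h.exists_involution hdet hA
  rcases (hJ _).mp ⟨σ, hσ, rfl⟩ with h1 | h1
  · rw [h1, one_pow]
  · rw [h1, pow_two, hc]

end Fermat.Agent.Classic.Level
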