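import Fermat.Agent.Classic.Level.Disc.Defs

/-!
# The norm of the product of the places dividing `N`
-/

set_option autoImplicit false
set_option linter.unusedSectionVars false

open NumberField IsDedekindDomain Ideal

namespace Fermat.Agent.Classic.Disc

variable {F : Type*} [Field F] [NumberField F]

/-- a place is above some prime number -/
lemma exists_prime_above (v : HeightOneSpectrum (𝓞 F)) :
    ∃ p : ℕ, p.Prime ∧ (p : 𝓞 F) ∈ v.asIdeal := by
  have h0 : absNorm v.asIdeal ≠ 0 := by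
    rw [Ne, Ideal.absNorm_eq_zero_iff]
    exact v.ne_bot
  have hmem : ((absNorm v.asIdeal : ℕ) : 𝓞 F) ∈ v.asIdeal := Ideal.absNorm_mem v.asIdeal
  have key : ∀ n : ℕ, n ≠ 0 → ((n : ℕ) : 𝓞 F) ∈ v.asIdeal →
      ∃ p : ℕ, p.Prime ∧ (p : 𝓞 F) ∈ v.asIdeal := by
    intro n
    induction n using Nat.recOnMul with
    | zero => intro h; exact absurd rfl h
    | one =>
      intro _ h
      exact absurd ((Ideal.eq_top_iff_one _).mpr (by simpa using h)) v.isPrime.ne_top
    | prime p hp => intro _ h; exact ⟨p, hp, h⟩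
    | mul a b ha hb =>
      intro h hab
      rw [Nat.cast_mul] at hab
      rcases v.isPrime.mem_or_mem hab with h1 | h1
      · exact ha (left_ne_zero_of_mul h) h1
      · exact hb (right_ne_zero_of_mul h) h1
  exact key _ h0 hmem

/-- the prime number below a place is unique -/
lemma prime_unique {v : HeightOneSpectrum (𝓞 F)} {p q : ℕ} (hp : p.Prime) (hq : q.Prime)
    (h : (p : 𝓞 F) ∈ v.asIdeal) (h' : (q : 𝓞 F) ∈ v.asIdeal) : p = q := by
  by_contra hne
  have hc : IsCoprime ((p : ℕ) : ℤ) ((q : ℕ) : ℤ) :=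
    Nat.isCoprime_iff_coprime.mpr ((Nat.coprime_primes hp hq).mpr hne)
  obtain ⟨a, b, hab⟩ := hc
  apply v.isPrime.ne_top
  rw [Ideal.eq_top_iff_one]
  have h1 : ((a : ℤ) : 𝓞 F) * (p : 𝓞 F) + ((b : ℤ) : 𝓞 F) * (q : 𝓞 F) = 1 := by
    have := congrArg (fun z : ℤ => (z : 𝓞 F)) hab
    simpa using this
  rw [← h1]
  exact Ideal.add_mem _ (Ideal.mul_mem_left _ _ h) (Ideal.mul_mem_left _ _ h')

lemma natCast_mem_iff {v : HeightOneSpectrum (𝓞 F)} {p N : ℕ} (hp : p.Prime)
    (h : (p : 𝓞 F) ∈ v.asIdeal) : (N : 𝓞 F) ∈ v.asIdeal ↔ p ∣ N := by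
  constructor
  · intro hN
    by_contra hpN
    have hc : IsCoprime ((p : ℕ) : ℤ) ((N : ℕ) : ℤ) :=
      Nat.isCoprime_iff_coprime.mpr ((Nat.Prime.coprime_iff_not_dvd hp).mpr hpN)
    obtain ⟨a, b, hab⟩ := hc
    apply v.isPrime.ne_top
    rw [Ideal.eq_top_iff_one]
    have h1 : ((a : ℤ) : 𝓞 F) * (p : 𝓞 F) + ((b : ℤ) : 𝓞 F) * (N : 𝓞 F) = 1 := by
      have := congrArg (fun z : ℤ => (z : 𝓞 F)) hab
      simpa using this
    rw [← h1]
    exact Ideal.add_mem _ (Ideal.mul_mem_left _ _ h) (Ideal.mul_mem_left _ _ hN)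
  · rintro ⟨c, rfl⟩
    rw [Nat.cast_mul]
    exact Ideal.mul_mem_right _ _ h

open scoped Classical in
/-- the `q`-adic valuation of the norm of a place -/
lemma padicValNat_absNorm (v : HeightOneSpectrum (𝓞 F)) {q : ℕ} (hq : q.Prime) :
    padicValNat q (absNorm v.asIdeal) = if (q : 𝓞 F) ∈ v.asIdeal then fdeg v else 0 := by
  have := Fact.mk hq
  obtain ⟨p, hp, hpv⟩ := exists_prime_above v
  rw [absNorm_eq hp hpv]
  split_ifs with h
  · have hpq := prime_unique hp hq hpv h
    subst hpq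
    exact padicValNat.prime_pow _
  · have hpq : p ≠ q := fun he => h (he ▸ hpv)
    have hnd : ¬ q ∣ p ^ fdeg v := fun hd =>
      hpq ((Nat.prime_dvd_prime_iff_eq hq hp).mp (hq.dvd_of_dvd_pow hd)).symm
    exact padicValNat.eq_zero_of_not_dvd hnd

/-- **The conductor of the Euler factors at the places dividing `N`.** -/
theorem padicValNat_prod_absNorm {N q : ℕ} (hq : q.Prime) (hqN : q ∣ N)
    {S : Finset (HeightOneSpectrum (𝓞 F))}
    (hS : ∀ v, v ∈ S ↔ (N : 𝓞 F) ∈ v.asIdeal) :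
    padicValNat q (∏ v ∈ S, absNorm v.asIdeal) = fSum F q := by
  classical
  have := Fact.mk hq
  have h0 : ∀ v ∈ S, absNorm v.asIdeal ≠ 0 := fun v _ => by
    rw [Ne, Ideal.absNorm_eq_zero_iff]
    exact v.ne_bot
  have h1 : padicValNat q (∏ v ∈ S, absNorm v.asIdeal) =
      ∑ v ∈ S, padicValNat q (absNorm v.asIdeal) := by
    clear hS
    induction S using Finset.induction_on with
    | empty => simp
    | insert a s ha ih =>
      rw [Finset.prod_insert ha, Finset.sum_insert ha, padicValNat.mul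
        (h0 a (Finset.mem_insert_self _ _))
        (Finset.prod_ne_zero_iff.mpr fun v hv => h0 v (Finset.mem_insert_of_mem hv)),
        ih fun v hv => h0 v (Finset.mem_insert_of_mem hv)]
  rw [h1, fSum, Finset.sum_congr rfl fun v _ => padicValNat_absNorm v hq, ← Finset.sum_filter]
  refine Finset.sum_congr ?_ fun _ _ => rfl
  ext v
  rw [Finset.mem_filter, mem_above hq.ne_zero, hS]
  constructor
  · exact fun h => h.2
  · intro h
    refine ⟨?_, h⟩
    exact (natCast_mem_iff hq h).mpr hqN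

end Fermat.Agent.Classic.Disc
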