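import Fermat.Agent.Minkowski.Inertia
import Fermat.Agent.LT.Tower.Frob
import Fermat.Agent.Classic.Level.Disc.Defs

/-!
# Orbits of inertia on the embeddings of a number field

`A` a valuation subring of `ℚ̄` above `q`, `F` a number field. Two embeddings of `F` in `ℚ̄` have
the same reduction modulo `A` if and only if they differ by an element of the inertia group of `A`
(`redτ_eq_iff`), and the number of reductions is the sum of the residue degrees of the places of
`F` above `q` (`card_range_redτ`, `card_orbits`).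
-/

set_option autoImplicit false

namespace Fermat.Agent.Classic.Disc

open NumberField IsDedekindDomain Fermat.Agent.Frob Fermat.Agent.FrobDensity
open Fermat.Agent.Minkowski Fermat.Agent.LT.Tower.Fr
open scoped Pointwise

variable {F : Type*} [Field F] [NumberField F]

/-- An element of the inertia group does not change the reduction. -/
theorem redτ_comp_inertia {A : ValuationSubring (AlgebraicClosure ℚ)} {σ : GQ}
    (hσ : σ ∈ A.inertiaSubgroupIn ℚ) (i : F →+* AlgebraicClosure ℚ) :
    redτ A ((gh σ).comp i) = redτ A i := by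
  ext x
  have h1 := (sub_mem_nonunits_of_mem_inertia hσ (mem_of_mem_Zbar A (toZbar i x))).2
  have h2 : toZbar ((gh σ).comp i) x - toZbar i x ∈ centre A := by
    rw [mem_centre_iff]
    exact h1
  rw [redτ, redτ, RingHom.comp_apply, RingHom.comp_apply, ← sub_eq_zero, ← map_sub,
    redA_eq_zero_iff]
  exact h2

/-- discrete topology on the algebraic integers (local use only) -/
local instance topZbarO : TopologicalSpace Zbar := ⊥
local instance discZbarO : DiscreteTopology Zbar := ⟨rfl⟩

local instance contSMulZbarO : ContinuousSMul GQ Zbar := by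
  rw [continuousSMul_iff_stabilizer_isOpen]
  intro x
  have h := stabilizer_isOpen_of_isIntegral (K := ℚ) (L := AlgebraicClosure ℚ)
    (x : AlgebraicClosure ℚ)
  convert h using 1
  ext g
  constructor
  · intro hg
    exact congrArg (fun x : Zbar => (x : AlgebraicClosure ℚ)) hg
  · intro hg
    exact Subtype.ext hg

set_option synthInstance.maxHeartbeats 200000 in
/-- Embeddings with the same reduction differ by an element of the inertia group. -/
theorem exists_inertia_of_redτ_eq {q : ℕ} (hq : q.Prime)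
    {A : ValuationSubring (AlgebraicClosure ℚ)} (hA : A.LiesOverPrime q)
    {i j : F →+* AlgebraicClosure ℚ} (hij : redτ A i = redτ A j) :
    ∃ σ ∈ A.inertiaSubgroupIn ℚ, (gh σ).comp i = j := by
  obtain ⟨g₀, hg₀⟩ := exists_extend i j
  have hg₀' : ∀ x : F, g₀ (i x) = j x := fun x => RingHom.congr_fun hg₀ x
  let M : IntermediateField ℚ (AlgebraicClosure ℚ) := (i.toRatAlgHom).fieldRange
  have hiM : ∀ x : F, i x ∈ M := fun x => ⟨x, rfl⟩
  let H : Subgroup GQ := M.fixingSubgroup
  have hHx : ∀ h ∈ H, ∀ x : F, h (i x) = i x := fun h hh x => hh ⟨i x, hiM x⟩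
  have hfM : FiniteDimensional ℚ M :=
    (AlgEquiv.ofInjectiveField i.toRatAlgHom).toLinearEquiv.finiteDimensional
  have hHc : IsClosed (H : Set GQ) := IntermediateField.fixingSubgroup_isClosed M
  have : CompactSpace H := isCompact_iff_compactSpace.mp hHc.isCompact
  let algR : Algebra (𝓞 F) Zbar := (toZbar i).toAlgebra
  have hsm : ∀ (r : 𝓞 F) (x : Zbar), r • x = toZbar i r * x := fun r x => rfl
  have hcomm : SMulCommClass H (𝓞 F) Zbar := by
    constructor
    rintro ⟨h, hh⟩ r x
    apply Subtype.ext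
    change h (i (r : F) * (x : AlgebraicClosure ℚ)) = i (r : F) * h (x : AlgebraicClosure ℚ)
    rw [map_mul, hHx h hh]
  have hcont : ContinuousSMul H Zbar := inferInstance
  have hinv : Algebra.IsInvariant (𝓞 F) Zbar H := by
    constructor
    intro b hb
    have h1 : (b : AlgebraicClosure ℚ) ∈ M := by
      rw [← InfiniteGalois.fixedField_fixingSubgroup M, IntermediateField.mem_fixedField_iff]
      intro g hg
      exact congrArg (fun x : Zbar => (x : AlgebraicClosure ℚ)) (hb ⟨g, hg⟩)
    obtain ⟨y, hy⟩ := h1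
    have hy' : i y = (b : AlgebraicClosure ℚ) := hy
    have h2 : IsIntegral ℤ y := by
      have h3 : IsIntegral ℤ (i y) := by
        rw [hy']
        exact b.2
      exact (isIntegral_algHom_iff (i.toIntAlgHom) i.injective).mp h3
    exact ⟨⟨y, h2⟩, Subtype.ext hy'⟩
  -- the primes
  have hunder : ∀ x : 𝓞 F, x ∈ (centre A).under (𝓞 F) ↔ toZbar i x ∈ centre A := fun x => Iff.rfl
  have hdiff : ∀ x : 𝓞 F, toZbar j x - toZbar i x ∈ centre A := by
    intro x
    rw [← redA_eq_zero_iff, map_sub, sub_eq_zero]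
    exact (RingHom.congr_fun hij x).symm
  have hg₀Z : ∀ x : 𝓞 F, g₀ • toZbar i x = toZbar j x := fun x => Subtype.ext (hg₀' x)
  have hPQ : (g₀⁻¹ • centre A).under (𝓞 F) = (centre A).under (𝓞 F) := by
    ext x
    change toZbar i x ∈ g₀⁻¹ • centre A ↔ toZbar i x ∈ centre A
    rw [Ideal.mem_pointwise_smul_iff_inv_smul_mem, inv_inv, hg₀Z]
    constructor
    · intro h
      have := (centre A).sub_mem h (hdiff x)
      simpa using this
    · intro h
      have := (centre A).add_mem (hdiff x) h
      simpa using this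
  have hprime : (g₀⁻¹ • centre A).IsPrime := inferInstance
  obtain ⟨h, hh⟩ := Algebra.IsInvariant.exists_smul_of_under_eq_of_profinite (A := 𝓞 F)
    (B := Zbar) (G := H) (g₀⁻¹ • centre A) (centre A) hPQ
  let σ₁ : GQ := g₀ * (h : GQ)⁻¹
  have hσ₁ : σ₁ • centre A = centre A := by
    have h1 : centre A = (h : GQ) • g₀⁻¹ • centre A := hh
    have h2 : σ₁ • centre A = g₀ • (h : GQ)⁻¹ • centre A := mul_smul _ _ _
    rw [h2]
    conv_lhs => rw [h1]
    rw [inv_smul_smul, smul_inv_smul]
  have hσ₁i : ∀ x : F, σ₁ (i x) = j x := by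
    intro x
    change g₀ ((h : GQ)⁻¹ (i x)) = _
    rw [hHx _ (H.inv_mem h.2), hg₀']
  have hσ₁r : ∀ r : 𝓞 F, σ₁ • toZbar i r - toZbar i r ∈ centre A := by
    intro r
    have : σ₁ • toZbar i r = toZbar j r := Subtype.ext (hσ₁i r)
    rw [this]
    exact hdiff r
  let e : (Zbar ⧸ centre A) ≃+* (Zbar ⧸ centre A) :=
    Ideal.quotientEquiv (centre A) (centre A) (MulSemiringAction.toRingEquiv GQ Zbar σ₁) hσ₁.symm
  let l : (Zbar ⧸ centre A) ≃ₐ[𝓞 F ⧸ (centre A).under (𝓞 F)] (Zbar ⧸ centre A) :=
    AlgEquiv.ofRingEquiv (f := e) (by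
      intro r
      obtain ⟨n, rfl⟩ := Ideal.Quotient.mk_surjective r
      rw [Ideal.Quotient.algebraMap_mk_of_liesOver]
      change Ideal.Quotient.mk (centre A) (σ₁ • toZbar i n) =
        Ideal.Quotient.mk (centre A) (toZbar i n)
      rw [← sub_eq_zero, ← map_sub, Ideal.Quotient.eq_zero_iff_mem]
      exact hσ₁r n)
  obtain ⟨⟨g, hg1⟩, hg2⟩ := Ideal.Quotient.stabilizerHom_surjective_of_profinite (G := H)
    ((centre A).under (𝓞 F)) (centre A) l
  have hg3 : ∀ x : Zbar, (g : GQ) • x - σ₁ • x ∈ centre A := by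
    intro x
    have := congrArg (fun f => f (Ideal.Quotient.mk (centre A) x)) hg2
    rw [← Ideal.Quotient.eq_zero_iff_mem, map_sub, sub_eq_zero]
    exact this
  refine ⟨σ₁ * (g : GQ)⁻¹, ?_, ?_⟩
  · apply mem_inertiaSubgroupIn_of_centre hq hA
    intro x
    have h1 := hg3 ((g : GQ)⁻¹ • x)
    rw [smul_inv_smul] at h1
    rw [mul_smul, ← neg_sub]
    exact (centre A).neg_mem h1
  · ext x
    change σ₁ ((g : GQ)⁻¹ (i x)) = _
    rw [hHx _ (H.inv_mem g.2), hσ₁i]

/-- Two embeddings have the same reduction if and only if they differ by inertia. -/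
theorem redτ_eq_iff {q : ℕ} (hq : q.Prime) {A : ValuationSubring (AlgebraicClosure ℚ)}
    (hA : A.LiesOverPrime q) {i j : F →+* AlgebraicClosure ℚ} :
    redτ A i = redτ A j ↔ ∃ σ ∈ A.inertiaSubgroupIn ℚ, (gh σ).comp i = j := by
  refine ⟨exists_inertia_of_redτ_eq hq hA, ?_⟩
  rintro ⟨σ, hσ, rfl⟩
  exact (redτ_comp_inertia hσ i).symm

/-- The powers `x ^ q ^ n`, `n < f`, are distinct on the field with `q ^ f` elements. -/
theorem frob_pow_injective {k : Type*} [Field k] [Finite k] {q f : ℕ} [Fact q.Prime] [CharP k q]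
    (hk : Nat.card k = q ^ f) {n m : ℕ} (hn : n < f) (hm : m < f)
    (h : ∀ x : k, x ^ q ^ n = x ^ q ^ m) : n = m := by
  classical
  have : Fintype k := Fintype.ofFinite k
  let _ : Algebra (ZMod q) k := ZMod.algebra k q
  have hfin : Module.finrank (ZMod q) k = f := by
    have h1 := Module.natCard_eq_pow_finrank (K := ZMod q) (V := k)
    rw [hk, Nat.card_zmod] at h1
    exact (Nat.pow_right_injective (Fact.out : q.Prime).two_le h1).symm
  have h3 : ∀ (m : ℕ) (x : k), ((FiniteField.frobeniusAlgHom (ZMod q) k) ^ m) x = x ^ q ^ m := by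
    intro m x
    rw [AlgHom.coe_pow, FiniteField.coe_frobeniusAlgHom, pow_iterate, ZMod.card]
  have h4 := (FiniteField.bijective_frobeniusAlgHom_pow (ZMod q) k).1
    (a₁ := ⟨n, by rw [hfin]; exact hn⟩) (a₂ := ⟨m, by rw [hfin]; exact hm⟩)
    (by
      ext x
      change ((FiniteField.frobeniusAlgHom (ZMod q) k) ^ n) x =
        ((FiniteField.frobeniusAlgHom (ZMod q) k) ^ m) x
      rw [h3, h3, h x])
  exact congrArg Fin.val h4

/-- **The number of reductions of the embeddings of `F` at `A` is the sum of the residue degrees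
of the places of `F` above `q`.** -/
theorem card_range_redτ {q : ℕ} (hq : q.Prime) {A : ValuationSubring (AlgebraicClosure ℚ)}
    (hA : A.LiesOverPrime q) :
    Nat.card (Set.range fun i : F →+* AlgebraicClosure ℚ => redτ A i) = fSum F q := by
  classical
  have hqf : Fact q.Prime := ⟨hq⟩
  have hchA : CharP (IsLocalRing.ResidueField A) q := charP_residue hq hA
  obtain ⟨φ, hφ⟩ := exists_isFrobeniusAt hq hA
  have hex : ∀ v : {v // v ∈ above F q}, ∃ i : F →+* AlgebraicClosure ℚ, Over i A v.1 := by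
    intro v
    have := v.1.isPrime
    exact exists_redτ hq hA (I := v.1.asIdeal) ((mem_above hq.ne_zero).mp v.2)
  choose iv hiv using hex
  have hnorm : ∀ v : {v // v ∈ above F q}, Ideal.absNorm v.1.asIdeal = q ^ fdeg v.1 := fun v =>
    absNorm_eq hq ((mem_above hq.ne_zero).mp v.2)
  let e : (Σ v : {v // v ∈ above F q}, Fin (fdeg v.1)) →
      Set.range fun i : F →+* AlgebraicClosure ℚ => redτ A i :=
    fun z => ⟨redτ A ((gh (φ ^ (z.2 : ℕ))).comp (iv z.1)), ⟨_, rfl⟩⟩
  have hker : ∀ (v : {v // v ∈ above F q}) (n : ℕ) (x : 𝓞 F),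
      redτ A ((gh (φ ^ n)).comp (iv v)) x = 0 ↔ x ∈ v.1.asIdeal := by
    intro v n x
    rw [redτ_frob_pow hφ, (hiv v).mem_iff]
    exact pow_eq_zero_iff (pow_ne_zero _ hq.ne_zero)
  have he : Function.Bijective e := by
    constructor
    · rintro ⟨v, n⟩ ⟨w, m⟩ h
      have h1 : redτ A ((gh (φ ^ (n : ℕ))).comp (iv v)) =
        redτ A ((gh (φ ^ (m : ℕ))).comp (iv w)) := congrArg Subtype.val h
      have hvw : v = w := by
        apply Subtype.ext
        apply HeightOneSpectrum.ext
        ext x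
        rw [← hker v n x, ← hker w m x, h1]
      subst hvw
      have h2 : (n : ℕ) = m := by
        let _ := fieldQuot v.1
        have hchk : CharP (𝓞 F ⧸ v.1.asIdeal) q :=
          (RingHom.charP_iff (hiv v).res (hiv v).res.injective q).mpr hchA
        refine frob_pow_injective (k := 𝓞 F ⧸ v.1.asIdeal) (q := q) (f := fdeg v.1)
          (by rw [natCard_quot, hnorm v]) n.2 m.2 ?_
        intro x
        obtain ⟨x, rfl⟩ := Ideal.Quotient.mk_surjective x
        apply (hiv v).res.injective
        rw [map_pow, map_pow, Over.res_mk, ← redτ_frob_pow hφ, ← redτ_frob_pow hφ, h1]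
      rw [Fin.ext h2]
    · rintro ⟨-, i, rfl⟩
      obtain ⟨v, hv⟩ := exists_over_of_liesOver i hq hA
      have hvS : v ∈ above F q := (mem_above hq.ne_zero).mpr (hv.natCast_mem_iff.mpr hA)
      let v' : {v // v ∈ above F q} := ⟨v, hvS⟩
      let _ := fieldQuot v
      obtain ⟨n, hn⟩ := exists_pow_of_finite q (hiv v').res hv.res
      have hf0 : 0 < fdeg v := fdeg_pos v
      refine ⟨⟨v', ⟨n % fdeg v, Nat.mod_lt _ hf0⟩⟩, ?_⟩
      apply Subtype.ext
      change redτ A ((gh (φ ^ (n % fdeg v))).comp (iv v')) = redτ A i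
      ext x
      rw [redτ_frob_pow hφ]
      have h1 : redτ A i x = redτ A (iv v') x ^ q ^ n := hn (Ideal.Quotient.mk v.asIdeal x)
      have h2 : redτ A (iv v') x ^ q ^ fdeg v = redτ A (iv v') x := by
        have h3 := (hiv v').redτ_pow_absNorm x
        rwa [hnorm v'] at h3
      have h4 : ∀ m : ℕ, redτ A (iv v') x ^ q ^ (fdeg v * m) = redτ A (iv v') x := by
        intro m
        induction m with
        | zero => rw [mul_zero, pow_zero, pow_one]
        | succ m ih => rw [mul_add, mul_one, pow_add, pow_mul, ih, h2]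
      rw [h1]
      conv_rhs => rw [← Nat.div_add_mod n (fdeg v), pow_add, pow_mul, h4]
  rw [← Nat.card_congr (Equiv.ofBijective e he), Nat.card_sigma, fSum,
    ← Finset.sum_coe_sort (above F q) fdeg]
  exact Finset.sum_congr rfl fun v _ => Nat.card_fin _

variable (F) in
/-- Embeddings which differ by an element of the inertia group of `A`. -/
def orb (A : ValuationSubring (AlgebraicClosure ℚ)) : Setoid (F →+* AlgebraicClosure ℚ) where
  r i j := ∃ σ ∈ A.inertiaSubgroupIn ℚ, ∀ x, j x = σ (i x)
  iseqv :=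
    { refl := fun i => ⟨1, one_mem _, fun _ => rfl⟩
      symm := by
        rintro i j ⟨σ, hσ, h⟩
        refine ⟨σ⁻¹, inv_mem hσ, fun x => ?_⟩
        rw [h]
        exact (σ.symm_apply_apply (i x)).symm
      trans := by
        rintro i j k ⟨σ, hσ, h⟩ ⟨σ', hσ', h'⟩
        refine ⟨σ' * σ, mul_mem hσ' hσ, fun x => ?_⟩
        rw [h', h]
        rfl }

theorem orb_iff {q : ℕ} (hq : q.Prime) {A : ValuationSubring (AlgebraicClosure ℚ)}
    (hA : A.LiesOverPrime q) {i j : F →+* AlgebraicClosure ℚ} :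
    (orb F A) i j ↔ redτ A i = redτ A j := by
  rw [redτ_eq_iff hq hA]
  constructor
  · rintro ⟨σ, hσ, h⟩
    exact ⟨σ, hσ, RingHom.ext fun x => (h x).symm⟩
  · rintro ⟨σ, hσ, h⟩
    exact ⟨σ, hσ, fun x => (RingHom.congr_fun h x).symm⟩

/-- **The sum of the residue degrees above `q` is the number of orbits of inertia on the
embeddings.** -/
theorem card_orbits {q : ℕ} (hq : q.Prime) {A : ValuationSubring (AlgebraicClosure ℚ)}
    (hA : A.LiesOverPrime q) : Nat.card (Quotient (orb F A)) = fSum F q := by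
  have h1 : orb F A = Setoid.ker fun i : F →+* AlgebraicClosure ℚ => redτ A i := by
    ext i j
    exact orb_iff hq hA
  rw [h1, Nat.card_congr (Setoid.quotientKerEquivRange _), card_range_redτ hq hA]

/-- Orbits of a group with two elements: if inertia acts on the embeddings through `{1, c}`. -/
theorem two_mul_fSum {q : ℕ} (hq : q.Prime) {A : ValuationSubring (AlgebraicClosure ℚ)}
    (hA : A.LiesOverPrime q) (c : (F →+* AlgebraicClosure ℚ) → (F →+* AlgebraicClosure ℚ))
    (hc : ∀ i, c (c i) = i)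
    (h1 : ∀ i, ∃ σ ∈ A.inertiaSubgroupIn ℚ, (gh σ).comp i = c i)
    (h2 : ∀ σ ∈ A.inertiaSubgroupIn ℚ, ∀ i, (gh σ).comp i = i ∨ (gh σ).comp i = c i) :
    2 * fSum F q = Module.finrank ℚ F + Nat.card {i : F →+* AlgebraicClosure ℚ // c i = i} := by
  classical
  have hfin : Finite (F →+* AlgebraicClosure ℚ) := finite_embeddings
  have : Fintype (Quotient (orb F A)) := Fintype.ofFinite _
  have horb : ∀ i j : F →+* AlgebraicClosure ℚ, (orb F A) i j ↔ j = i ∨ j = c i := by
    intro i j
    constructor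
    · rintro ⟨σ, hσ, h⟩
      have h3 : j = (gh σ).comp i := RingHom.ext h
      rcases h2 σ hσ i with h4 | h4
      · left; rw [h3, h4]
      · right; rw [h3, h4]
    · rintro (rfl | rfl)
      · exact (orb F A).refl _
      · obtain ⟨σ, hσ, h⟩ := h1 i
        exact ⟨σ, hσ, fun x => (RingHom.congr_fun h x).symm⟩
  have hn : Module.finrank ℚ F = Nat.card (F →+* AlgebraicClosure ℚ) := by
    rw [← NumberField.Embeddings.card F (AlgebraicClosure ℚ), ← Nat.card_eq_fintype_card]
  -- both sides count pairs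
  have hX : ∀ x : Quotient (orb F A), 2 =
      Nat.card {i : F →+* AlgebraicClosure ℚ // (⟦i⟧ : Quotient (orb F A)) = x} +
      Nat.card {i : F →+* AlgebraicClosure ℚ // c i = i ∧ (⟦i⟧ : Quotient (orb F A)) = x} := by
    intro x
    obtain ⟨i, rfl⟩ := Quotient.exists_rep x
    have hcl : ∀ j : F →+* AlgebraicClosure ℚ, (⟦j⟧ : Quotient (orb F A)) = ⟦i⟧ ↔
        j = i ∨ j = c i := by
      intro j
      rw [eq_comm, Quotient.eq]
      exact horb i j
    by_cases hi : c i = i
    · have e1 : Nat.card {j : F →+* AlgebraicClosure ℚ // (⟦j⟧ : Quotient (orb F A)) = ⟦i⟧} = 1 := by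
        rw [Nat.card_eq_one_iff_unique]
        refine ⟨⟨fun a b => Subtype.ext ?_⟩, ⟨⟨i, rfl⟩⟩⟩
        have ha := (hcl a.1).mp a.2
        have hb := (hcl b.1).mp b.2
        rw [hi, or_self] at ha hb
        rw [ha, hb]
      have e2 : Nat.card {j : F →+* AlgebraicClosure ℚ //
          c j = j ∧ (⟦j⟧ : Quotient (orb F A)) = ⟦i⟧} = 1 := by
        rw [Nat.card_eq_one_iff_unique]
        refine ⟨⟨fun a b => Subtype.ext ?_⟩, ⟨⟨i, hi, rfl⟩⟩⟩
        have ha := (hcl a.1).mp a.2.2
        have hb := (hcl b.1).mp b.2.2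
        rw [hi, or_self] at ha hb
        rw [ha, hb]
      rw [e1, e2]
    · have e1 : Nat.card {j : F →+* AlgebraicClosure ℚ // (⟦j⟧ : Quotient (orb F A)) = ⟦i⟧} = 2 := by
        have h3 : {j : F →+* AlgebraicClosure ℚ | (⟦j⟧ : Quotient (orb F A)) = ⟦i⟧} = {i, c i} := by
          ext j
          exact hcl j
        have h4 : Nat.card {j : F →+* AlgebraicClosure ℚ // (⟦j⟧ : Quotient (orb F A)) = ⟦i⟧} =
            Set.ncard ({i, c i} : Set (F →+* AlgebraicClosure ℚ)) := by
          rw [← h3]
          rfl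
        rw [h4]
        exact Set.ncard_pair (Ne.symm hi)
      have e2 : Nat.card {j : F →+* AlgebraicClosure ℚ //
          c j = j ∧ (⟦j⟧ : Quotient (orb F A)) = ⟦i⟧} = 0 := by
        rw [Nat.card_eq_zero]
        left
        constructor
        rintro ⟨j, hj, hj2⟩
        rcases (hcl j).mp hj2 with rfl | rfl
        · exact hi hj
        · exact hi (by rw [hc] at hj; exact hj.symm)
      rw [e1, e2]
  have h5 : 2 * Nat.card (Quotient (orb F A)) = Nat.card (F →+* AlgebraicClosure ℚ) +
      Nat.card {i : F →+* AlgebraicClosure ℚ // c i = i} := by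
    have e1 : Nat.card (F →+* AlgebraicClosure ℚ) = ∑ x : Quotient (orb F A),
        Nat.card {i : F →+* AlgebraicClosure ℚ // (⟦i⟧ : Quotient (orb F A)) = x} := by
      rw [← Nat.card_sigma]
      exact Nat.card_congr (Equiv.sigmaFiberEquiv _).symm
    have e2 : Nat.card {i : F →+* AlgebraicClosure ℚ // c i = i} = ∑ x : Quotient (orb F A),
        Nat.card {i : F →+* AlgebraicClosure ℚ // c i = i ∧ (⟦i⟧ : Quotient (orb F A)) = x} := by
      rw [← Nat.card_sigma]
      refine Nat.card_congr ((Equiv.sigmaFiberEquiv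
        (fun i : {i : F →+* AlgebraicClosure ℚ // c i = i} =>
          (⟦i.1⟧ : Quotient (orb F A)))).symm.trans
        (Equiv.sigmaCongrRight fun x => ?_))
      exact
        { toFun := fun z => ⟨z.1.1, z.1.2, z.2⟩
          invFun := fun z => ⟨⟨z.1, z.2.1⟩, z.2.2⟩
          left_inv := fun _ => rfl
          right_inv := fun _ => rfl }
    rw [e1, e2, ← Finset.sum_add_distrib, Nat.card_eq_fintype_card, ← Finset.card_univ,
      mul_comm, ← smul_eq_mul, ← Finset.sum_const]
    exact Finset.sum_congr rfl fun x _ => hX x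
  rw [← card_orbits hq hA, h5, hn]

end Fermat.Agent.Classic.Disc
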