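import Fermat.Agent.Classic.Level.FixField
import Fermat.Agent.Classic.Level.Disc.Defs

/-!
# Inertia orbits on the embeddings of the fixed field of `ρ⁻¹(H)`

`J = ρ(I_A)` acts on `G ⧸ H`; the orbits correspond to the orbits of the inertia group `I_A` on the
embeddings of `F` in `ℚ̄`, and Burnside's lemma counts them.
-/

set_option autoImplicit false

noncomputable section

namespace Fermat.Agent.Classic.Disc

open NumberField Fermat.Agent.Frob Fermat.Agent.Classic.Level

local notation "Qbar" => AlgebraicClosure ℚ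

section group

variable {G : Type*} [Group G] [Finite G] (H J : Subgroup G)

/-- Burnside's lemma for a subgroup `J` acting on `G ⧸ H`. -/
theorem card_orbits_mul_card :
    Nat.card (MulAction.orbitRel.Quotient J (G ⧸ H)) * Nat.card J =
      ∑ᶠ a : J, pH H (a : G) := by
  classical
  have := Fintype.ofFinite (G ⧸ H)
  have := Fintype.ofFinite J
  have := Fintype.ofFinite (MulAction.orbitRel.Quotient J (G ⧸ H))
  have h := MulAction.sum_card_fixedBy_eq_card_orbits_mul_card_group J (G ⧸ H)
  rw [finsum_eq_sum_of_fintype, Nat.card_eq_fintype_card, Nat.card_eq_fintype_card, ← h]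
  refine Finset.sum_congr rfl fun a _ => ?_
  rw [← Nat.card_eq_fintype_card]
  rfl

omit [Finite G] in
lemma pH_one : pH H (1 : G) = H.index := by
  rw [pH, Subgroup.index]
  exact Nat.card_congr ⟨fun x => x.1, fun x => ⟨x, one_smul G x⟩, fun _ => rfl, fun _ => rfl⟩

omit [Finite G] in
/-- the permutation character is a class function -/
lemma pH_conj (x a : G) : pH H (x * a * x⁻¹) = pH H a := by
  refine Nat.card_congr ⟨fun y => ⟨x⁻¹ • y.1, ?_⟩, fun y => ⟨x • y.1, ?_⟩, fun y => ?_, fun y => ?_⟩
  · have h := y.2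
    rw [mul_smul, mul_smul] at h
    exact eq_inv_smul_iff.mpr h
  · rw [mul_smul, mul_smul, inv_smul_smul, y.2]
  · exact Subtype.ext (smul_inv_smul _ _)
  · exact Subtype.ext (inv_smul_smul _ _)

/-- orbits of a group of order at most two: `2 · #orbits = [G : H] + #(fixed points of c)` -/
theorem two_mul_card_orbits {c : G} (hc1 : c ≠ 1) (hJ : ∀ a, a ∈ J ↔ a = 1 ∨ a = c) :
    2 * Nat.card (MulAction.orbitRel.Quotient J (G ⧸ H)) = H.index + pH H c := by
  classical
  have hcJ : c ∈ J := (hJ c).mpr (Or.inr rfl)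
  let e : Bool ≃ J :=
    { toFun := fun b => if b then 1 else ⟨c, hcJ⟩
      invFun := fun a => decide (a = 1)
      left_inv := fun b => by
        rcases b with _ | _
        · simp [Subtype.ext_iff, hc1]
        · simp
      right_inv := fun a => by
        by_cases h : a = 1
        · simp [h]
        · have h2 : a = ⟨c, hcJ⟩ := by
            rcases (hJ a).mp a.2 with h3 | h3
            · exact absurd (Subtype.ext h3) h
            · exact Subtype.ext h3
          simp [h2, Subtype.ext_iff, hc1] }
  have h1 : Nat.card J = 2 := by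
    rw [← Nat.card_congr e]
    simp
  have h2 := card_orbits_mul_card H J
  rw [h1, ← finsum_comp_equiv e, finsum_eq_sum_of_fintype, Fintype.sum_bool] at h2
  have h3 : pH H ((e true : J) : G) = H.index := pH_one H
  have h4 : pH H ((e false : J) : G) = pH H c := rfl
  omega

end group

variable {G : Type*} [Group G] {ρ : GQ →* G} {H : Subgroup G} (T : FixField ρ H)
  (hs : Function.Surjective ρ)

include hs in
/-- the inertia orbits on the embeddings are the orbits of `ρ(I)` on `G ⧸ H` -/
theorem card_orb (I : Subgroup GQ) (r : Setoid (T.F →+* Qbar))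
    (hr : ∀ i j : T.F →+* Qbar, r i j ↔ ∃ σ ∈ I, ∀ x, j x = σ (i x)) :
    Nat.card (Quotient r) = Nat.card (MulAction.orbitRel.Quotient (I.map ρ) (G ⧸ H)) := by
  refine (Nat.card_congr (Quotient.congr (T.emb hs) fun x y => ?_)).symm
  rw [MulAction.orbitRel_apply, hr]
  constructor
  · rintro ⟨⟨a, σ, hσ, rfl⟩, h⟩
    have h1 : ρ σ • y = x := h
    refine ⟨σ⁻¹, inv_mem hσ, fun z => ?_⟩
    rw [← h1, T.emb_smul hs]
    change _ = (σ⁻¹ * σ) _
    rw [inv_mul_cancel]
    rfl
  · rintro ⟨σ, hσ, h⟩
    have h1 : T.emb hs y = T.emb hs (ρ σ • x) := by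
      rw [T.emb_smul hs]
      exact RingHom.ext h
    have h2 : y = ρ σ • x := (T.emb hs).injective h1
    refine ⟨⟨(ρ σ)⁻¹, inv_mem ⟨σ, hσ, rfl⟩⟩, ?_⟩
    change (ρ σ)⁻¹ • y = x
    rw [h2, inv_smul_smul]

end Fermat.Agent.Classic.Disc
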