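import Fermat.Agent.Classic.Level.Perm
import Fermat.Agent.Classic.Level.Disc.Three
import Fermat.Agent.Classic.Level.Disc.DetAt
import Fermat.Agent.Classic.Level.Disc.Orbits
import Fermat.Agent.Classic.Level.Disc.Norm

/-!
# The sums of the residue degrees above `3` in the tame case: 13, 7, 5, 3
-/

set_option autoImplicit false

noncomputable section

namespace Fermat.Agent.Classic.Disc

open NumberField Fermat.Agent.Frob Fermat.Agent.Classic.Level WeierstrassCurve

local notation "G3" => Matrix.GeneralLinearGroup (Fin 2) (ZMod 3)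

variable {ρ : GQ →* G3}
  (hdet : ∀ σ : GQ, Matrix.GeneralLinearGroup.det (ρ σ) = modThreeCyclotomicChar σ)
  (hs : Function.Surjective ρ) (h : DetAt ρ 3)

include hdet hs h

theorem exists_two_mul_fSum : ∃ c : G3, c.1.det = -1 ∧ c.1.trace = 0 ∧
    ∀ (H : Subgroup G3) (T : FixField ρ H), 2 * fSum T.F 3 = H.index + pH H c := by
  obtain ⟨A, hA⟩ := Frob.exists_liesOverPrime 3 Nat.prime_three
  obtain ⟨c, hc, hd, hc1, hJ⟩ := h.exists_involution hdet hA
  refine ⟨c, hd, trace_of_sq hd hc, fun H T => ?_⟩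
  rw [← card_orbits Nat.prime_three hA,
    card_orb T hs (A.inertiaSubgroupIn ℚ) (orb T.F A) fun _ _ => Iff.rfl]
  exact two_mul_card_orbits H _ hc1 hJ

/-- **The four numbers at `3`.** -/
theorem fSum_three (T24 : FixField ρ C2) (T12 : FixField ρ V4) (T8 : FixField ρ S3)
    (T4 : FixField ρ B3) : fSum T24.F 3 = 13 ∧ fSum T12.F 3 = 7 ∧ fSum T8.F 3 = 5 ∧
      fSum T4.F 3 = 3 := by
  obtain ⟨c, hd, ht, hc⟩ := exists_two_mul_fSum hdet hs h
  obtain ⟨h1, h2, h3, h4⟩ := pH_refl hd ht
  have e1 := hc _ T24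
  have e2 := hc _ T12
  have e3 := hc _ T8
  have e4 := hc _ T4
  rw [h1, index_C2] at e1
  rw [h2, index_V4] at e2
  rw [h3, index_S3] at e3
  rw [h4, index_B3] at e4
  omega

/-- the same numbers as the orders at `3` of the products of the norms of the places above `N` -/
theorem padicValNat_three {N : ℕ} (hN : N ≠ 0) (h3 : 3 ∣ N) (T24 : FixField ρ C2)
    (T12 : FixField ρ V4) (T8 : FixField ρ S3) (T4 : FixField ρ B3) :
    padicValNat 3 (∏ v ∈ above T24.F N, Ideal.absNorm v.asIdeal) = 13 ∧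
    padicValNat 3 (∏ v ∈ above T12.F N, Ideal.absNorm v.asIdeal) = 7 ∧
    padicValNat 3 (∏ v ∈ above T8.F N, Ideal.absNorm v.asIdeal) = 5 ∧
    padicValNat 3 (∏ v ∈ above T4.F N, Ideal.absNorm v.asIdeal) = 3 := by
  rw [padicValNat_prod_absNorm Nat.prime_three h3 fun v => mem_above hN,
    padicValNat_prod_absNorm Nat.prime_three h3 fun v => mem_above hN,
    padicValNat_prod_absNorm Nat.prime_three h3 fun v => mem_above hN,
    padicValNat_prod_absNorm Nat.prime_three h3 fun v => mem_above hN]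
  exact fSum_three hdet hs h T24 T12 T8 T4

end Fermat.Agent.Classic.Disc
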