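import Mathlib
import Fermat.Prelude.Def_GaloisRep_ComplexConjugation

/-!
# Real places of a number field through embeddings into `ℚ̄`

For a number field `F` the embeddings `F → ℚ̄` correspond to the embeddings `F → ℂ` (through the
chosen `complexEmbedding`), and an embedding `F → ℂ` is real if and only if the corresponding
embedding into `ℚ̄` is fixed by `complexConjugation`.
-/

set_option autoImplicit false

open NumberField NumberField.InfinitePlace Module

namespace Fermat.Agent.Classic.Disc

local notation "Qb" => AlgebraicClosure ℚ

variable (F : Type*) [Field F] [NumberField F]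

/-- Composition with the chosen embedding `ℚ̄ → ℂ`. -/
noncomputable def toCx (j : F →+* Qb) : F →+* ℂ :=
  (complexEmbedding : Qb →ₐ[ℚ] ℂ).toRingHom.comp j

variable {F} in
omit [NumberField F] in
theorem toCx_apply (j : F →+* Qb) (x : F) : toCx F j x = complexEmbedding (j x) := rfl

omit [NumberField F] in
theorem toCx_injective : Function.Injective (toCx F) := by
  intro j j' h
  ext x
  apply (complexEmbedding : Qb →ₐ[ℚ] ℂ).toRingHom.injective
  exact congrArg (fun f : F →+* ℂ => f x) h

theorem toCx_bijective : Function.Bijective (toCx F) := by
  classical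
  rw [Fintype.bijective_iff_injective_and_card]
  refine ⟨toCx_injective F, ?_⟩
  rw [NumberField.Embeddings.card F Qb, NumberField.Embeddings.card F ℂ]

/-- The embeddings into `ℚ̄` are the embeddings into `ℂ`. -/
noncomputable def embEquiv : (F →+* Qb) ≃ (F →+* ℂ) :=
  Equiv.ofBijective (toCx F) (toCx_bijective F)

variable {F} in
theorem embEquiv_apply (j : F →+* Qb) (x : F) : embEquiv F j x = complexEmbedding (j x) := rfl

variable {F} in
/-- An embedding `F → ℂ` is real iff the embedding into `ℚ̄` is fixed by complex conjugation. -/
theorem isReal_iff (j : F →+* Qb) :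
    ComplexEmbedding.IsReal (embEquiv F j) ↔ ∀ x, complexConjugation (j x) = j x := by
  rw [ComplexEmbedding.isReal_iff]
  constructor
  · intro h x
    apply (complexEmbedding : Qb →ₐ[ℚ] ℂ).toRingHom.injective
    have hx := congrArg (fun f : F →+* ℂ => f x) h
    simp only [ComplexEmbedding.conjugate_coe_eq] at hx
    change complexEmbedding (complexConjugation (j x)) = complexEmbedding (j x)
    rw [complexEmbedding_complexConjugation]
    exact hx
  · intro h
    ext x
    simp only [ComplexEmbedding.conjugate_coe_eq]
    rw [embEquiv_apply, ← complexEmbedding_complexConjugation, h x]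

/-- The number of real places is the number of embeddings into `ℚ̄` which are fixed by complex
conjugation. -/
theorem nrRealPlaces_eq :
    nrRealPlaces F = Nat.card {j : F →+* Qb // ∀ x, complexConjugation (j x) = j x} := by
  classical
  rw [← card_real_embeddings, ← Nat.card_eq_fintype_card]
  refine Nat.card_congr (Equiv.subtypeEquiv (embEquiv F).symm fun φ => ?_)
  rw [← isReal_iff, Equiv.apply_symm_apply]

/-- Signature: `r₁ + 2 r₂ = [F : ℚ]` with `r₁` counted through `ℚ̄`. -/
theorem card_fixed_add :
    Nat.card {j : F →+* Qb // ∀ x, complexConjugation (j x) = j x} + 2 * nrComplexPlaces F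
      = finrank ℚ F := by
  rw [← nrRealPlaces_eq, card_add_two_mul_card_eq_rank]

/-- The number of complex places from the degree and the number of fixed embeddings. -/
theorem nrComplexPlaces_eq :
    nrComplexPlaces F
      = (finrank ℚ F - Nat.card {j : F →+* Qb // ∀ x, complexConjugation (j x) = j x}) / 2 := by
  have h := card_fixed_add F
  omega

/-- No embedding into `ℚ̄` is fixed by complex conjugation: `F` is totally complex. -/
theorem isTotallyComplex_of
    (h : ∀ j : F →+* Qb, ¬ ∀ x, complexConjugation (j x) = j x) : IsTotallyComplex F := by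
  rw [← nrRealPlaces_eq_zero_iff, nrRealPlaces_eq, Nat.card_eq_zero]
  exact Or.inl ⟨fun j => h j.1 j.2⟩

/-- The signature from the two numbers `n = [F : ℚ]` and `a` = number of fixed embeddings. -/
theorem signature {n a : ℕ} (hn : finrank ℚ F = n)
    (ha : Nat.card {j : F →+* Qb // ∀ x, complexConjugation (j x) = j x} = a) :
    nrRealPlaces F = a ∧ nrComplexPlaces F = (n - a) / 2 := by
  refine ⟨by rw [nrRealPlaces_eq, ha], by rw [nrComplexPlaces_eq, hn, ha]⟩

end Fermat.Agent.Classic.Disc
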