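import Fermat.Agent.Classic.Level.FixField
import Fermat.Agent.Classic.Level.Disc.Real

/-!
# Signature of the fixed field of `ρ⁻¹(H)`

`r₁` is the number of fixed points of `ρ(c)` on `G ⧸ H` and `r₁ + 2 r₂ = (G : H)`.
-/

set_option autoImplicit false

open NumberField NumberField.InfinitePlace

namespace Fermat.Agent.Classic.Disc

open Fermat.Agent.Classic.Level Fermat.Agent.Frob Fermat.Agent.LT.Tower

variable {G : Type*} [Group G] {ρ : GQ →* G} {H : Subgroup G}

theorem nrRealPlaces_fixField (T : FixField ρ H) (hs : Function.Surjective ρ) :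
    nrRealPlaces T.F = pH H (ρ complexConjugation) := by
  rw [nrRealPlaces_eq T.F]
  exact T.card_fixed hs complexConjugation

theorem pH_add_nrComplexPlaces (T : FixField ρ H) (hs : Function.Surjective ρ) :
    pH H (ρ complexConjugation) + 2 * nrComplexPlaces T.F = H.index := by
  rw [← nrRealPlaces_fixField T hs, card_add_two_mul_card_eq_rank]
  exact T.finrank hs

theorem nrComplexPlaces_fixField (T : FixField ρ H) (hs : Function.Surjective ρ) :
    nrComplexPlaces T.F = (H.index - pH H (ρ complexConjugation)) / 2 := by
  have h := pH_add_nrComplexPlaces T hs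
  omega

/-- The signature of `F_H` from the index and the number of fixed points of `ρ(c)`. -/
theorem signature_fixField (T : FixField ρ H) (hs : Function.Surjective ρ) {n a : ℕ}
    (hn : H.index = n) (ha : pH H (ρ complexConjugation) = a) :
    Module.finrank ℚ T.F = n ∧ nrRealPlaces T.F = a ∧ nrComplexPlaces T.F = (n - a) / 2 := by
  refine ⟨by rw [T.finrank hs, hn], by rw [nrRealPlaces_fixField T hs, ha], ?_⟩
  rw [nrComplexPlaces_fixField T hs, hn, ha]

end Fermat.Agent.Classic.Disc
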