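import Fermat.Agent.Classic.Rep3
import Fermat.Agent.TriLow.LocalUnip

/-!
# Inertia at `q ≠ p` on `E[p]` for a semistable curve: the image has exponent `p`

`repP_inertia_pow` : for a semistable model over `ℤ`, `p` odd, `q ≠ p` and `σ` in an inertia group
over `q`, `repP p hΔ σ ^ p = 1`.
-/

set_option autoImplicit false

noncomputable section

namespace Fermat.Agent.Classic

open WeierstrassCurve WeierstrassCurve.Affine WeierstrassCurve.Affine.Point
open Fermat.Agent.ECFrob Fermat.Agent.Torsion Matrix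

local notation "Γℚ" => (AlgebraicClosure ℚ ≃ₐ[ℚ] AlgebraicClosure ℚ)

variable {W : WeierstrassCurve ℤ} {p : ℕ} [hp : Fact p.Prime] {q : ℕ}

/-- the product of two unipotent inertia elements: `(ρ(σ) - 1)(ρ(τ) - 1) = 0`. -/
theorem repP_inertia_mul (hΔ : W.Δ ≠ 0) (hss : W.IsSemistableModel) (hp2 : p ≠ 2)
    (hq : q.Prime) (hne : q ≠ p) {A : ValuationSubring (AlgebraicClosure ℚ)}
    (hA : A.LiesOverPrime q) {σ τ : Γℚ} (hσ : σ ∈ A.inertiaSubgroupIn ℚ)
    (hτ : τ ∈ A.inertiaSubgroupIn ℚ) :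
    ((repP p hΔ σ : Matrix (Fin 2) (Fin 2) (ZMod p)) - 1) *
      ((repP p hΔ τ : Matrix (Fin 2) (Fin 2) (ZMod p)) - 1) = 0 := by
  have h := TriLow.rho_inertia_mul (p := p) hΔ hss hp2 hq hne hA hσ hτ
  have := finite_rat hΔ hp.out.ne_zero
  have : Module.Finite (ZMod p)
      (Submodule.torsionBy ℤ ((W.map (Int.castRingHom ℚ))⁄(AlgebraicClosure ℚ)).Point p) :=
    Module.Finite.of_finite
  let b := Module.finBasisOfFinrankEq _ _ (finrank_rat hΔ (p := p))
  have h1 : ∀ g : Γℚ, (repP p hΔ g : Matrix (Fin 2) (Fin 2) (ZMod p)) =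
      LinearMap.toMatrixAlgEquiv b (rho W p g) := fun g => rfl
  rw [h1, h1, ← map_one (LinearMap.toMatrixAlgEquiv b), ← map_sub, ← map_sub, ← map_mul, h,
    _root_.map_zero]

/-- **Inertia at `q ≠ p` acts on `E[p]` through a group of exponent `p`.** -/
theorem repP_inertia_pow (hΔ : W.Δ ≠ 0) (hss : W.IsSemistableModel) (hp2 : p ≠ 2)
    (hq : q.Prime) (hne : q ≠ p) {A : ValuationSubring (AlgebraicClosure ℚ)}
    (hA : A.LiesOverPrime q) {σ : Γℚ} (hσ : σ ∈ A.inertiaSubgroupIn ℚ) :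
    repP p hΔ σ ^ p = 1 := by
  have h := repP_inertia_mul hΔ hss hp2 hq hne hA hσ hσ
  refine Units.ext ?_
  rw [Units.val_pow_eq_pow_val, Units.val_one]
  set X : Matrix (Fin 2) (Fin 2) (ZMod p) := (repP p hΔ σ : Matrix (Fin 2) (Fin 2) (ZMod p))
  have h1 : (X - 1) ^ p = X ^ p - 1 := by
    rw [sub_pow_char_of_commute p (Commute.one_right X), one_pow]
  have h2 : (X - 1) ^ p = 0 :=
    pow_eq_zero_of_le hp.out.two_le (by rw [pow_two, h])
  exact sub_eq_zero.mp (h1.symm.trans h2)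

/-- **Inertia at `q ≠ 3` acts on `E[3]` through a group of exponent `3`.** -/
theorem rep3_pow_three (hΔ : W.Δ ≠ 0) (hss : W.IsSemistableModel)
    (hq : q.Prime) (hne : q ≠ 3) {A : ValuationSubring (AlgebraicClosure ℚ)}
    (hA : A.LiesOverPrime q) {σ : Γℚ} (hσ : σ ∈ A.inertiaSubgroupIn ℚ) :
    rep3 hΔ σ ^ 3 = 1 :=
  haveI : Fact (Nat.Prime 3) := ⟨Nat.prime_three⟩
  repP_inertia_pow hΔ hss (by decide) hq hne hA hσ

end Fermat.Agent.Classic
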