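import Fermat.Agent.Classic.Level.Steps
import Fermat.Agent.Classic.Level.Disc.RepInertia

/-!
# The junction `StepDq`
-/

set_option autoImplicit false

namespace Fermat.Agent.Classic.Level

/-- **Dq**: inertia away from `3` has exponent three. -/
theorem stepDq : StepDq :=
  fun _ hΔ hss _ hq hne _ hA _ hσ => rep3_pow_three hΔ hss hq hne hA hσ

end Fermat.Agent.Classic.Level
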